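/-
S33 (`moonshots` row 61), STEP G, chart instance (helper23): **`TwoCharts.exists_section_ord` for
the two charts `chartAlg O F₀ {j}`, `chartAlg O F₀ {j⁻¹}` of the `j`-line** in the setting of
`P3G/LocalRootsAt` (`TwoVal π W V₁ V₂`, `W` semi-Gauss for both charts).  All chart hypotheses of
`exists_section_ord` are discharged here:

* `hVp hVm hϖV hsatp` from `TwoVal` + `IsSemiGaussRing` (`LocalRootsAt.algebraMap_chart_mem`,
  `sat_chart`);
* `harch` from the discreteness of `V₁`, `V₂` with uniformiser `π` (`harch_of_disc`; the fields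
  `unif`, `disc` of `P4/TwistRoots.Setup`);
* `hpole` : a place whose valuation ring contains `j` contains the chart (`contains_chartAlg`);
* `hspan` from `N4/IntClosure.exists_finset_span_chartAlg`;
* noetherian / integrally closed / fraction ring instances of the charts from `N4`.

What remains: `hdiv` (finiteness of the divisor of a function: at a level
`P3G/Glue/LevelDict.exists_finset_ord_ne_zero`), `hE`, and the local approximants `hloc`.
-/
import Mathlib
import Fermat.Agent.S33.G.TwoCharts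
import Fermat.Agent.P3G.LocalRootsAt
import Fermat.Agent.N4.IntClosure
import Fermat.Agent.N4.ChartFinite

set_option autoImplicit false
set_option linter.unusedSectionVars false
set_option linter.style.haveILetI false

namespace Fermat.Agent.S33.G.Level

open Fermat.Agent.N4.Chart Fermat.Agent.N4.IntClosure Fermat.Agent.N4.ChartFinite
open Fermat.Agent.P3G.Cover.Lift Fermat.Agent.P3G.Assembly.PowCover
open Fermat.Agent.P3G.LocalRootsAt Fermat.Agent.P3G.Krull
open Fermat.Agent.N4.Cover.Main (isFractionRing_chartAlg isIntegrallyClosed_chartAlg)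
open Fermat.Agent.N4F.C.LocalMult
open Fermat.Agent.S33.G.TwoCharts Fermat.Agent.S33.G.SectionModule
open AlgebraicCurve IntermediateField

universe u

/-! ### A place whose valuation ring contains the generators contains the chart -/

section Contains

variable {O F : Type*} [CommRing O] [Field F] [Algebra O F]

/-- A valuation ring of `F` containing the constants `O` and the set `S` contains the integral
closure `chartAlg O F S` of `O[S]`. -/
theorem chartAlg_le_valuationSubring (V : ValuationSubring F)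
    (hO : ∀ c : O, algebraMap O F c ∈ V) {S : Set F} (hS : S ⊆ (V : Set F)) {x : F}
    (hx : x ∈ chartAlg O F S) : x ∈ V := by
  rw [mem_chartAlg_iff] at hx
  let VA : Subalgebra O F :=
    { V.toSubring.toSubsemiring with algebraMap_mem' := hO }
  have hadj : Algebra.adjoin O S ≤ VA := Algebra.adjoin_le hS
  let φ : ↥(Algebra.adjoin O S) →+* V :=
    { toFun := fun y => ⟨(y : F), hadj y.2⟩
      map_one' := rfl
      map_mul' := fun _ _ => rfl
      map_zero' := rfl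
      map_add' := fun _ _ => rfl }
  have hint : IsIntegral V x := by
    have := hx.map_of_comp_eq φ (RingHom.id F) (by ext; rfl)
    simpa using this
  obtain ⟨y, hy⟩ := IsIntegrallyClosed.isIntegral_iff.1 hint
  rw [← hy]
  exact y.2

end Contains

/-! ### Archimedean property from discreteness -/

section Disc

variable {F R : Type*} [Field F] [CommRing R] [Algebra R F]

/-- If every nonzero element of `F` has `V`-valuation a power of the valuation of `ϖ`, and `ϖ`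
generates the maximal ideal of `V`, then powers of elements of the centre of `V` push every
element of `F` into `V`. -/
theorem harch_of_disc (V : ValuationSubring F) (hV : ∀ r : R, algebraMap R F r ∈ V) {ϖ : F}
    (hϖ0 : ϖ ≠ 0) (hϖ1 : V.valuation ϖ < 1)
    (hunif : ∀ x, V.valuation x < 1 → V.valuation x ≤ V.valuation ϖ)
    (hdisc : ∀ x : F, x ≠ 0 → ∃ n : ℤ, V.valuation x = V.valuation ϖ ^ n)
    (x : F) (c : R) (hc : c ∈ vCentre V hV) : ∃ m : ℕ, (c ^ m) • x ∈ V := by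
  rcases eq_or_ne x 0 with rfl | hx0
  · exact ⟨0, by rw [smul_zero]; exact V.zero_mem⟩
  obtain ⟨n, hn⟩ := hdisc x hx0
  have hc1 : V.valuation (algebraMap R F c) < 1 :=
    (V.mem_nonunits_iff).1 ((mem_vCentre_iff V hV).1 hc)
  have hc2 : V.valuation (algebraMap R F c) ≤ V.valuation ϖ := hunif _ hc1
  have hϖv0 : V.valuation ϖ ≠ 0 := (Valuation.ne_zero_iff _).2 hϖ0
  rcases le_total 0 n with h0n | hn0
  · -- `x ∈ V` already
    refine ⟨0, ?_⟩
    rw [pow_zero, one_smul, ← V.valuation_le_one_iff, hn]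
    obtain ⟨k, rfl⟩ := Int.eq_ofNat_of_zero_le h0n
    rw [zpow_natCast]
    exact pow_le_one' hϖ1.le k
  · obtain ⟨k, hk⟩ : ∃ k : ℕ, n = -(k : ℤ) := ⟨n.natAbs, by omega⟩
    subst hk
    refine ⟨k, ?_⟩
    rw [Algebra.smul_def, map_pow, ← V.valuation_le_one_iff, map_mul, map_pow, hn, zpow_neg,
      zpow_natCast]
    calc V.valuation (algebraMap R F c) ^ k * (V.valuation ϖ ^ k)⁻¹
        ≤ V.valuation ϖ ^ k * (V.valuation ϖ ^ k)⁻¹ :=
          mul_le_mul' (pow_le_pow_left' hc2 k) le_rfl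
      _ = 1 := mul_inv_cancel₀ (pow_ne_zero k hϖv0)

end Disc

/-! ### The chart instance -/

section Chart

variable {O K₀ : Type*} [CommRing O] [IsDomain O] [IsDiscreteValuationRing O]
  [Field K₀] [CharZero K₀] [Algebra O K₀] [IsFractionRing O K₀]
variable {F₀ : Type u} [Field F₀] [Algebra K₀ F₀] [Algebra O F₀] [IsScalarTower O K₀ F₀]
variable {π : O} {W : Subring F₀} {V₁ V₂ : ValuationSubring F₀}

/-- `LocApprox` for the family `fam V₁ V₂` from the two components separately. -/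
theorem locApprox_fam {R : Type*} [CommRing R] [Algebra R F₀]
    (hV : ∀ b (r : R), algebraMap R F₀ r ∈ fam V₁ V₂ b) (E : Place K₀ F₀ → ℤ) (𝔫 : Ideal R)
    {ρ η : F₀} {N : ℕ}
    (h₁ : vCentre V₁ (hV true) ≤ 𝔫 →
      η ∈ V₁ ∧ ∃ d ∈ V₁, ρ - η = algebraMap O F₀ (π ^ N) * d)
    (h₂ : vCentre V₂ (hV false) ≤ 𝔫 →
      η ∈ V₂ ∧ ∃ d ∈ V₂, ρ - η = algebraMap O F₀ (π ^ N) * d)
    (hor : ∀ (v : Place K₀ F₀) (hv : Contains R v), centreIdeal hv ≤ 𝔫 →
      v.adicValuation η ≤ WithZero.exp (-(E v))) :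
    LocApprox (fam V₁ V₂) hV E π 𝔫 ρ N η where
  vert := by
    intro b hb
    cases b
    · exact (h₂ hb).1
    · exact (h₁ hb).1
  approx := by
    intro b hb
    cases b
    · exact (h₂ hb).2
    · exact (h₁ hb).2
  hor := hor

/-- **STEP G on the two charts of the `j`-line.**  In the setting of `P3G/LocalRootsAt`
(`TwoVal π W V₁ V₂`, `W` semi-Gauss for the charts `chartAlg O F₀ {j^{±1}}`), with `V₁ V₂`
discrete with uniformiser `π`: local approximants at all closed points of the special fibres of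
both charts, for every precision `N`, give a global `g ≠ 0`, a unit at `V₁` and `V₂`, with
`E ≤ div g`. -/
theorem exists_section_chart (j : F₀) (hj : Transcendental K₀ j) [FiniteDimensional K₀⟮j⟯ F₀]
    (hπ : Irreducible π) (hT : TwoVal π W V₁ V₂)
    (hWp : IsSemiGaussRing W (algebraMap O (chartAlg O F₀ {j}) π))
    (hdisc₁ : ∀ x : F₀, x ≠ 0 →
      ∃ n : ℤ, V₁.valuation x = V₁.valuation (algebraMap O F₀ π) ^ n)
    (hdisc₂ : ∀ x : F₀, x ≠ 0 →
      ∃ n : ℤ, V₂.valuation x = V₂.valuation (algebraMap O F₀ π) ^ n)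
    (hVp : ∀ b (r : chartAlg O F₀ {j}), algebraMap (chartAlg O F₀ {j}) F₀ r ∈ fam V₁ V₂ b)
    (hVm : ∀ b (r : chartAlg O F₀ {j⁻¹}), algebraMap (chartAlg O F₀ {j⁻¹}) F₀ r ∈ fam V₁ V₂ b)
    (E : Place K₀ F₀ → ℤ) (hE : {v : Place K₀ F₀ | E v ≠ 0}.Finite)
    (hdiv : ∀ x : F₀, x ≠ 0 → {v : Place K₀ F₀ | v.ord x ≠ 0}.Finite)
    (hloc : ∀ N : ℕ, ∃ ρ : F₀, V₁.valuation ρ = 1 ∧ V₂.valuation ρ = 1 ∧
      (∀ 𝔫 : Ideal (chartAlg O F₀ {j}), 𝔫.IsMaximal →
        algebraMap O (chartAlg O F₀ {j}) π ∈ 𝔫 →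
        ∃ η : F₀, LocApprox (fam V₁ V₂) hVp E π 𝔫 ρ N η) ∧
      (∀ 𝔫 : Ideal (chartAlg O F₀ {j⁻¹}), 𝔫.IsMaximal →
        algebraMap O (chartAlg O F₀ {j⁻¹}) π ∈ 𝔫 →
        ∃ η : F₀, LocApprox (fam V₁ V₂) hVm E π 𝔫 ρ N η)) :
    ∃ g : F₀, g ≠ 0 ∧ V₁.valuation g = 1 ∧ V₂.valuation g = 1 ∧
      ∀ v : Place K₀ F₀, E v ≤ v.ord g := by
  classical
  have hj0 : j ≠ 0 := fun h0 => hj (h0 ▸ isAlgebraic_zero)
  have hjinv : Transcendental K₀ j⁻¹ := fun h => hj (by simpa using h.inv)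
  haveI : FiniteDimensional K₀⟮j⁻¹⟯ F₀ := by
    rw [Fermat.Agent.N4.Cover.Main.adjoin_inv_eq]
    infer_instance
  haveI : IsNoetherianRing (chartAlg O F₀ {j}) := isNoetherianRing_chartAlg (K := K₀) j hj
  haveI : IsNoetherianRing (chartAlg O F₀ {j⁻¹}) := isNoetherianRing_chartAlg (K := K₀) j⁻¹ hjinv
  haveI : IsFractionRing (chartAlg O F₀ {j}) F₀ := isFractionRing_chartAlg (O := O) (K₀ := K₀) j hj
  haveI : IsFractionRing (chartAlg O F₀ {j⁻¹}) F₀ :=
    isFractionRing_chartAlg (O := O) (K₀ := K₀) j⁻¹ hjinv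
  haveI : IsIntegrallyClosed (chartAlg O F₀ {j}) :=
    isIntegrallyClosed_chartAlg (O := O) (K₀ := K₀) j hj
  haveI : IsIntegrallyClosed (chartAlg O F₀ {j⁻¹}) :=
    isIntegrallyClosed_chartAlg (O := O) (K₀ := K₀) j⁻¹ hjinv
  -- vertical hypotheses
  have hϖV : ∀ b, algebraMap O F₀ π ∈ (fam V₁ V₂ b).nonunits := by
    intro b; cases b
    · exact hT.pi_mem₂
    · exact hT.pi_mem₁
  have hϖ1 : ∀ b, (fam V₁ V₂ b).valuation (algebraMap O F₀ π) < 1 := fun b =>
    ((fam V₁ V₂ b).mem_nonunits_iff).1 (hϖV b)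
  have hdisc : ∀ b (x : F₀), x ≠ 0 →
      ∃ n : ℤ, (fam V₁ V₂ b).valuation x = (fam V₁ V₂ b).valuation (algebraMap O F₀ π) ^ n := by
    intro b; cases b
    · exact hdisc₂
    · exact hdisc₁
  have hsatp : ∀ r : chartAlg O F₀ {j},
      (∀ b, algebraMap (chartAlg O F₀ {j}) F₀ r ∈ (fam V₁ V₂ b).nonunits) →
        algebraMap O (chartAlg O F₀ {j}) π ∣ r := sat_chart j hT hWp
  have harchp : ∀ b (x : F₀) (c : chartAlg O F₀ {j}), c ∈ vCentre (fam V₁ V₂ b) (hVp b) →
      ∃ m : ℕ, (c ^ m) • x ∈ fam V₁ V₂ b := fun b x c hc =>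
    harch_of_disc (fam V₁ V₂ b) (hVp b) hT.pi_ne (hϖ1 b) (valuation_le_pi hT b) (hdisc b) x c hc
  have harchm : ∀ b (x : F₀) (c : chartAlg O F₀ {j⁻¹}), c ∈ vCentre (fam V₁ V₂ b) (hVm b) →
      ∃ m : ℕ, (c ^ m) • x ∈ fam V₁ V₂ b := fun b x c hc =>
    harch_of_disc (fam V₁ V₂ b) (hVm b) hT.pi_ne (hϖ1 b) (valuation_le_pi hT b) (hdisc b) x c hc
  -- poles
  have hOv : ∀ (v : Place K₀ F₀) (c : O), algebraMap O F₀ c ∈ v.toValuationSubring := by
    intro v c
    rw [IsScalarTower.algebraMap_apply O K₀ F₀]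
    exact v.algebraMap_mem' _
  have hpole_p : ∀ v : Place K₀ F₀, j ∈ v.toValuationSubring → Contains (chartAlg O F₀ {j}) v :=
    fun v hv r => chartAlg_le_valuationSubring v.toValuationSubring (hOv v)
      (Set.singleton_subset_iff.2 hv) r.2
  have hpole_m : ∀ v : Place K₀ F₀, j⁻¹ ∈ v.toValuationSubring →
      Contains (chartAlg O F₀ {j⁻¹}) v :=
    fun v hv r => chartAlg_le_valuationSubring v.toValuationSubring (hOv v)
      (Set.singleton_subset_iff.2 hv) r.2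
  -- finiteness of the first chart over `O[j]`
  obtain ⟨s₀, hs₀, hsp⟩ := exists_finset_span_chartAlg (O := O) (K := K₀) j hj
  have hs₀' : ∀ e ∈ s₀, ∃ r : chartAlg O F₀ {j}, algebraMap (chartAlg O F₀ {j}) F₀ r = e :=
    fun e he => ⟨⟨e, hs₀ e he⟩, rfl⟩
  have hspan : ∀ r : chartAlg O F₀ {j}, algebraMap (chartAlg O F₀ {j}) F₀ r ∈
      Submodule.span O {y : F₀ | ∃ (n : ℕ) (e : F₀), e ∈ s₀ ∧ y = j ^ n * e} := by
    intro r
    obtain ⟨c, hc, hx⟩ := hsp (r : F₀) r.2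
    have h1 : algebraMap (chartAlg O F₀ {j}) F₀ r = ∑ e ∈ s₀, c e * e := hx
    rw [h1]
    exact sum_mul_mem_span_monomials j s₀ c hc
  -- the local hypotheses
  have hloc' : ∀ N : ℕ, ∃ ρ : F₀, (∀ b, ρ ∈ fam V₁ V₂ b) ∧
      (∀ b ∈ (Set.univ : Set Bool), ρ ∉ (fam V₁ V₂ b).nonunits) ∧
      (∀ 𝔫 : Ideal (chartAlg O F₀ {j}), 𝔫.IsMaximal →
        algebraMap O (chartAlg O F₀ {j}) π ∈ 𝔫 →
        ∃ η : F₀, LocApprox (fam V₁ V₂) hVp E π 𝔫 ρ N η) ∧
      (∀ 𝔫 : Ideal (chartAlg O F₀ {j⁻¹}), 𝔫.IsMaximal →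
        algebraMap O (chartAlg O F₀ {j⁻¹}) π ∈ 𝔫 →
        ∃ η : F₀, LocApprox (fam V₁ V₂) hVm E π 𝔫 ρ N η) := by
    intro N
    obtain ⟨ρ, h1, h2, hp, hm⟩ := hloc N
    have hval : ∀ b, (fam V₁ V₂ b).valuation ρ = 1 := by
      intro b; cases b
      · exact h2
      · exact h1
    refine ⟨ρ, fun b => ?_, fun b _ => ?_, hp, hm⟩
    · rw [← (fam V₁ V₂ b).valuation_le_one_iff, hval b]
    · rw [(fam V₁ V₂ b).mem_nonunits_iff, hval b]
      exact lt_irrefl 1
  obtain ⟨g, hg0, hgV, hgU, hgE⟩ := exists_section_ord (fam V₁ V₂) E hπ hVp hVm hϖV hsatp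
    harchp harchm hE hdiv hj0 ⟨⟨j, subset_chartAlg _ (Set.mem_singleton j)⟩, rfl⟩
    ⟨⟨j⁻¹, subset_chartAlg _ (Set.mem_singleton j⁻¹)⟩, rfl⟩ hpole_p hpole_m s₀ hs₀' hspan
    Set.univ ⟨true, trivial⟩ hloc'
  have hval : ∀ b, (fam V₁ V₂ b).valuation g = 1 := by
    intro b
    refine le_antisymm (((fam V₁ V₂ b).valuation_le_one_iff _).2 (hgV b)) ?_
    by_contra hlt
    rw [not_le] at hlt
    exact hgU b trivial (((fam V₁ V₂ b).mem_nonunits_iff).2 hlt)
  exact ⟨g, hg0, hval true, hval false, hgE⟩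

end Chart

end Fermat.Agent.S33.G.Level
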