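/-
S33 (`moonshots` row 61), STEP G at a GOOD LEVEL (helper23): **`G/Level.exists_section_chart` with
every chart hypothesis discharged at a good level `K`** of the modular curve `X₀(M q)`, `q ∤ M`,
for the NAMED vertical data of `S33/L/PointsUniform.levelData_of_secondVal`:
`O = baseRing A K`, `F = FF (Lvl K) (M * q)`, `V₁ = gaussVS`, `V₂ = S₂.V`,
`W = FibreSatBridge.W … S₂`, charts `Rfin`, `Rinf`.

* `disc_level` : `V₁`, `V₂` are discrete with uniformiser `ϖ` (`P4/BranchNormalLevel.setup_fin`);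
* `finite_ord_ne_zero_level` : finiteness of the divisor of a function
  (`P3G/Glue/LevelDict.exists_finset_ord_ne_zero`);
* `exists_section_level` : what remains are `hE` and the local approximants `hloc`.
-/
import Mathlib
import Fermat.Agent.S33.G.Level
import Fermat.Agent.S33.L.PointsUniform
import Fermat.Agent.P4.BranchNormalLevel
import Fermat.Agent.P3G.Glue.LevelDict

set_option autoImplicit false
set_option linter.unusedSectionVars false
set_option linter.dupNamespace false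
set_option linter.style.haveILetI false

open ModularCurve AlgebraicCurve IntermediateField

noncomputable section

namespace Fermat.Agent.S33.G.LevelInst

open Fermat.Agent.N4.Setting Fermat.Agent.N4.Chart Fermat.Agent.N4.S18Glue Fermat.Agent.N4.BigDVR
  Fermat.Agent.P3G.Cover.Lift Fermat.Agent.P3G.Cover.OfValuations Fermat.Agent.P3G.Assembly.PowCover
  Fermat.Agent.P3G.Assembly.StepOfLevel Fermat.Agent.P3G.Assembly.LevelStep
  Fermat.Agent.P3G.Assembly.LevelGeomOfPoints
  Fermat.Agent.P3G.Gamma Fermat.Agent.P3G.GammaAut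
  Fermat.Agent.N4F.C Fermat.Agent.N4F.C.Levels Fermat.Agent.N4F.C.Galois
  Fermat.Agent.N4F.E.GaussDVR
  Fermat.Agent.P3G.LocalRootsAt
  Fermat.Agent.S33.G.TwoCharts Fermat.Agent.S33.G.Level

local notation "Qbar" => AlgebraicClosure ℚ
local notation "Γ" => (AlgebraicClosure ℚ ≃ₐ[ℚ] AlgebraicClosure ℚ)

/-- Finiteness of the divisor of a function at a level. -/
theorem finite_ord_ne_zero_level (N : ℕ) [NeZero N] (K : IntermediateField ℚ Qbar)
    (x : FF (Lvl K) N) (hx : x ≠ 0) :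
    {v : Place (Lvl K) (FF (Lvl K) N) | v.ord x ≠ 0}.Finite := by
  obtain ⟨S₀, hS₀⟩ := Fermat.Agent.P3G.Glue.LevelDict.exists_finset_ord_ne_zero N K x hx
  exact S₀.finite_toSet.subset fun v hv => hS₀ v hv

set_option maxHeartbeats 1600000 in
set_option synthInstance.maxHeartbeats 400000 in
/-- The two vertical valuation rings at a good level are discrete with uniformiser `ϖ`. -/
theorem disc_level (M q : ℕ) [NeZero M] [Fact q.Prime] (hqM : ¬ q ∣ M)
    (A : ValuationSubring Qbar) (hA : A.LiesOverPrime q)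
    (K : IntermediateField ℚ Qbar) (hK : IsGoodLevel A q K)
    [IsDiscreteValuationRing ↥(baseRing A K)] [IsFractionRing ↥(baseRing A K) (Lvl K)]
    (S₂ : Fermat.Agent.P3G.FibreTwo.SecondVal (Lvl K) M q (baseRing A K))
    (ϖ : ↥(baseRing A K)) (hϖ : Irreducible ϖ) :
    (∀ x : FF (Lvl K) (M * q), x ≠ 0 → ∃ n : ℤ,
      (gaussVS (Lvl K) (M * q) (baseRing A K)).valuation x =
        (gaussVS (Lvl K) (M * q) (baseRing A K)).valuation
          (algebraMap ↥(baseRing A K) (FF (Lvl K) (M * q)) ϖ) ^ n) ∧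
    (∀ x : FF (Lvl K) (M * q), x ≠ 0 → ∃ n : ℤ,
      S₂.V.valuation x =
        S₂.V.valuation (algebraMap ↥(baseRing A K) (FF (Lvl K) (M * q)) ϖ) ^ n) := by
  have hq : q.Prime := Fact.out
  haveI : IsAlgClosed (IsLocalRing.ResidueField ↥(baseRing A K)) := hK.algClosed
  have hGB : GoodBase (Lvl K) M (baseRing A K) q := ⟨hq, hqM, inferInstance, hK.not_unit⟩
  haveI : CharP (IsLocalRing.ResidueField ↥(baseRing A K)) q :=
    Fermat.Agent.N4F.E.GaussResidue.charP_residueField (Lvl K) M (baseRing A K) hGB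
  haveI : PerfectRing (IsLocalRing.ResidueField ↥(baseRing A K)) q := inferInstance
  have hstar := LevelStatements.starStatement_lvl hq hA K hGB hK.roots
  have hsmooth := LevelStatements.smoothStatement_lvl hq hA hqM K hGB hK.roots
  have hprime := hstar.1.isPrime
  have hred : PGI.RedMem (Lvl K) M (baseRing A K) := fun s hs =>
    ChartReduction.red_mem_full (Lvl K) M (baseRing A K) hGB hstar s hs
  have hA2 := Fermat.Agent.N4F.E.NormReduction.theta_mem_full (Lvl K) M (baseRing A K) hred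
  have hN : IsUnit ((M : ℕ) : ↥(baseRing A K)) :=
    Fermat.Agent.P3G.GammaUnits.isUnit_natCast_baseRing K hq hA hqM
  have hS := Fermat.Agent.P4.BranchNormalLevel.setup_fin (Lvl K) M q (baseRing A K) hN
    (Fermat.Agent.P3G.GammaV2.lvlToComplex K) hqM hprime hsmooth.1 hA2 S₂ hϖ
  exact ⟨hS.disc₁, hS.disc₂⟩

set_option maxHeartbeats 1600000 in
set_option synthInstance.maxHeartbeats 400000 in
/-- **STEP G at a good level.**  `O = baseRing A K`, `F = FF (Lvl K) (M * q)`, `V₁ = gaussVS`,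
`V₂ = S₂.V`, charts `Rfin`, `Rinf`.  If for every precision `N` there is `ρ`, a unit at `V₁` and
`V₂`, with local approximants (`TwoCharts.LocApprox`) of the sections of `𝒪(-E)` at every closed
point of the special fibres of both charts, then `E ≤ div g` for some `g ≠ 0` which is a unit at
`V₁` and `V₂`. -/
theorem exists_section_level (M q : ℕ) [NeZero M] [Fact q.Prime] (hqM : ¬ q ∣ M)
    (A : ValuationSubring Qbar) (hA : A.LiesOverPrime q)
    (K : IntermediateField ℚ Qbar) (hK : IsGoodLevel A q K)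
    [IsDiscreteValuationRing ↥(baseRing A K)] [IsFractionRing ↥(baseRing A K) (Lvl K)]
    (S₂ : Fermat.Agent.P3G.FibreTwo.SecondVal (Lvl K) M q (baseRing A K))
    (ϖ : ↥(baseRing A K)) (hϖ : Irreducible ϖ)
    (hVp : ∀ b (r : ↥(Rfin (Lvl K) (M * q) (baseRing A K))),
      algebraMap ↥(Rfin (Lvl K) (M * q) (baseRing A K)) (FF (Lvl K) (M * q)) r ∈
        fam (gaussVS (Lvl K) (M * q) (baseRing A K)) S₂.V b)
    (hVm : ∀ b (r : ↥(Rinf (Lvl K) (M * q) (baseRing A K))),
      algebraMap ↥(Rinf (Lvl K) (M * q) (baseRing A K)) (FF (Lvl K) (M * q)) r ∈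
        fam (gaussVS (Lvl K) (M * q) (baseRing A K)) S₂.V b)
    (E : Place (Lvl K) (FF (Lvl K) (M * q)) → ℤ)
    (hE : {v : Place (Lvl K) (FF (Lvl K) (M * q)) | E v ≠ 0}.Finite)
    (hloc : ∀ N : ℕ, ∃ ρ : FF (Lvl K) (M * q),
      (gaussVS (Lvl K) (M * q) (baseRing A K)).valuation ρ = 1 ∧ S₂.V.valuation ρ = 1 ∧
      (∀ 𝔫 : Ideal ↥(Rfin (Lvl K) (M * q) (baseRing A K)), 𝔫.IsMaximal →
        algebraMap ↥(baseRing A K) ↥(Rfin (Lvl K) (M * q) (baseRing A K)) ϖ ∈ 𝔫 →
        ∃ η : FF (Lvl K) (M * q),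
          LocApprox (fam (gaussVS (Lvl K) (M * q) (baseRing A K)) S₂.V) hVp E ϖ 𝔫 ρ N η) ∧
      (∀ 𝔫 : Ideal ↥(Rinf (Lvl K) (M * q) (baseRing A K)), 𝔫.IsMaximal →
        algebraMap ↥(baseRing A K) ↥(Rinf (Lvl K) (M * q) (baseRing A K)) ϖ ∈ 𝔫 →
        ∃ η : FF (Lvl K) (M * q),
          LocApprox (fam (gaussVS (Lvl K) (M * q) (baseRing A K)) S₂.V) hVm E ϖ 𝔫 ρ N η)) :
    ∃ g : FF (Lvl K) (M * q), g ≠ 0 ∧
      (gaussVS (Lvl K) (M * q) (baseRing A K)).valuation g = 1 ∧ S₂.V.valuation g = 1 ∧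
      ∀ v : Place (Lvl K) (FF (Lvl K) (M * q)), E v ≤ v.ord g := by
  obtain ⟨hd₁, hd₂⟩ := disc_level M q hqM A hA K hK S₂ ϖ hϖ
  obtain ⟨-, -, hdata⟩ :=
    Fermat.Agent.S33.L.PointsUniform.levelData_of_secondVal M q hqM A hA K hK S₂ ϖ hϖ
  obtain ⟨hV, -, -⟩ := hdata 1 (Subgroup.one_mem _)
  haveI := Fermat.Agent.N4.ModPolySetting.finiteDimensional_FF (Lvl K) (M * q)
  exact exists_section_chart (K₀ := Lvl K) (jF (Lvl K) (M * q))
    (Fermat.Agent.N4.FFAlgebraic.transcendental_jF (Lvl K) (M * q)) hϖ hV.twoVal hV.semiP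
    hd₁ hd₂ hVp hVm E hE (finite_ord_ne_zero_level (M * q) K) hloc

end Fermat.Agent.S33.G.LevelInst
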