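/-
S33 (`moonshots` row 61), STEP G in the CONTRACT SHAPE of `S33/L/Skeleton` (helper23):
**`Skeleton.GOut`** — from `G/Level.exists_section_chart` / `G/LevelInst.exists_section_level`.

* `locApprox_of_tOutAt` : `Skeleton.TOutAt K 𝔫 V₁ V₂ ϖ E j ρ` gives the local approximant
  `η = a' · βz` of `TwoCharts.LocApprox` at every precision `N ≤ j`;
* `gOut_of_forall` : the logical step — the conclusion of `GOut` does not depend on `ρ`, so it
  suffices to produce a section from a FAMILY of `ρ`'s of unbounded precision;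
* `gOut_chart` : `GOut` for the two charts `chartAlg O F₀ {j^{±1}}` (setting of
  `P3G/LocalRootsAt`);
* `gOut_level` : `GOut` at a good level (`V₁ = gaussVS`, `V₂ = S₂.V`, charts `Rfin`, `Rinf`),
  for every finitely supported `E`.
-/
import Mathlib
import Fermat.Agent.S33.G.LevelInst
import Fermat.Agent.S33.L.Skeleton

set_option autoImplicit false
set_option linter.unusedSectionVars false
set_option linter.dupNamespace false
set_option linter.style.haveILetI false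

open ModularCurve AlgebraicCurve IntermediateField

noncomputable section

namespace Fermat.Agent.S33.G.GOut

open Fermat.Agent.N4.Setting Fermat.Agent.N4.Chart Fermat.Agent.N4.S18Glue Fermat.Agent.N4.BigDVR
  Fermat.Agent.P3G.Cover.Lift Fermat.Agent.P3G.Assembly.PowCover
  Fermat.Agent.P3G.Assembly.LevelStep Fermat.Agent.P3G.Assembly.LevelGeomOfPoints
  Fermat.Agent.P3G.Krull Fermat.Agent.P3G.UCrit
  Fermat.Agent.N4F.C Fermat.Agent.N4F.C.Levels Fermat.Agent.N4F.C.LocalMult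
  Fermat.Agent.N4F.E.GaussDVR
  Fermat.Agent.P3G.LocalRootsAt Fermat.Agent.P4.TwistRoots
  Fermat.Agent.S33.G.TwoCharts Fermat.Agent.S33.G.SectionModule Fermat.Agent.S33.G.Level
  Fermat.Agent.S33.G.LevelInst Fermat.Agent.S33.L.Skeleton

local notation "Qbar" => AlgebraicClosure ℚ

universe u

/-! ### From `TOutAt` to `LocApprox` -/

section Abstract

variable {O K₀ : Type*} [CommRing O] [IsDomain O] [IsDiscreteValuationRing O]
  [Field K₀] [CharZero K₀] [Algebra O K₀] [IsFractionRing O K₀]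
variable {F₀ : Type u} [Field F₀] [Algebra K₀ F₀] [Algebra O F₀] [IsScalarTower O K₀ F₀]
variable {R : Type*} [CommRing R] [IsDomain R] [Algebra R F₀] [IsFractionRing R F₀] [Algebra O R]

/-- `TOutAt` at precision `j` gives `LocApprox` at every precision `N ≤ j`, with `η = a' · βz`. -/
theorem locApprox_of_tOutAt {V₁ V₂ : ValuationSubring F₀}
    (hV : ∀ b (r : R), algebraMap R F₀ r ∈ fam V₁ V₂ b) {π : O}
    (hπ₁ : algebraMap O F₀ π ∈ V₁) (hπ₂ : algebraMap O F₀ π ∈ V₂)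
    (E : Place K₀ F₀ → ℤ) (𝔫 : Ideal R) [𝔫.IsPrime] {j N : ℕ} (hNj : N ≤ j) {ρ : F₀}
    (h : TOutAt K₀ 𝔫 V₁ V₂ π E j ρ) :
    ∃ η : F₀, LocApprox (fam V₁ V₂) hV E π 𝔫 ρ N η := by
  obtain ⟨βz, a', hβ0, hβ₁, hβ₂, hβE, ha', hc₁, hc₂⟩ := h
  have ha0 : a' ≠ 0 := ha'.ne_zero
  have hη0 : a' * βz ≠ 0 := mul_ne_zero ha0 hβ0
  have key : ∀ (V : ValuationSubring F₀) (hVR : ∀ r : R, algebraMap R F₀ r ∈ V),
      algebraMap O F₀ π ∈ V → V.valuation βz = 1 →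
      (Through V 𝔫 → CongrMod V π j ρ (a' * βz)) → vCentre V hVR ≤ 𝔫 →
      a' * βz ∈ V ∧ ∃ d ∈ V, ρ - a' * βz = algebraMap O F₀ (π ^ N) * d := by
    intro V hVR hπV hβV hc hle
    have ht : Through V 𝔫 := fun r hr => hle ((mem_vCentre_iff V hVR).2 hr)
    have hva : V.valuation a' = 1 := ha'.valuation_eq_one hVR ht
    refine ⟨?_, ?_⟩
    · rw [← V.valuation_le_one_iff, map_mul, hva, hβV, one_mul]
    · obtain ⟨d, hd, e⟩ := (hc ht).mono hNj hπV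
      exact ⟨d, hd, by rw [map_pow]; exact e⟩
  refine ⟨a' * βz, locApprox_fam hV E 𝔫 (key V₁ (hV true) hπ₁ hβ₁ hc₁)
    (key V₂ (hV false) hπ₂ hβ₂ hc₂) ?_⟩
  intro v hv hcen
  have hQ : v ∈ centredSet K₀ 𝔫 :=
    ⟨hv, fun r hr => hcen ((mem_centreIdeal_iff hv).2 hr)⟩
  rw [adicValuation_le_exp_neg_iff v hη0, v.ord_mul ha0 hβ0, ha'.ord_eq_zero hQ, zero_add,
    hβE v hQ]

end Abstract

/-! ### The logical step -/

section Logic

variable {O K F Rp Rm : Type*} [CommRing O] [Field K] [Field F] [Algebra K F] [Algebra O F]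
  [CommRing Rp] [IsDomain Rp] [Algebra Rp F] [IsFractionRing Rp F] [Algebra O Rp]
  [CommRing Rm] [IsDomain Rm] [Algebra Rm F] [IsFractionRing Rm F] [Algebra O Rm]

/-- The conclusion of `GOut` does not depend on `ρ` and `j`: it suffices to produce the section
from a family of `ρ`'s satisfying (T-out) with unbounded precision. -/
theorem gOut_of_forall (V₁ V₂ : ValuationSubring F) (ϖ : O) (E : Place K F → ℤ)
    (H : (∀ N : ℕ, ∃ j : ℕ, N < j ∧ ∃ ρ : F, V₁.valuation ρ = 1 ∧ V₂.valuation ρ = 1 ∧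
        TOut K Rp V₁ V₂ ϖ E j ρ ∧ TOut K Rm V₁ V₂ ϖ E j ρ) →
      ∃ g : F, g ≠ 0 ∧ ∀ Q : Place K F, E Q ≤ Q.ord g) :
    GOut K Rp Rm V₁ V₂ ϖ E := by
  by_contra hno
  have key : ∀ N : ℕ, ∃ j : ℕ, N < j ∧ ∃ ρ : F, V₁.valuation ρ = 1 ∧ V₂.valuation ρ = 1 ∧
      TOut K Rp V₁ V₂ ϖ E j ρ ∧ TOut K Rm V₁ V₂ ϖ E j ρ := by
    intro N
    by_contra hcon
    apply hno
    refine ⟨N, fun j hj ρ h1 h2 hp hm => ?_⟩
    exact absurd ⟨j, hj, ρ, h1, h2, hp, hm⟩ hcon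
  obtain ⟨g, hg0, hgE⟩ := H key
  exact hno ⟨0, fun _ _ _ _ _ _ _ => ⟨g, hg0, hgE⟩⟩

end Logic

/-! ### `GOut` on the two charts of the `j`-line -/

section Chart

variable {O K₀ : Type*} [CommRing O] [IsDomain O] [IsDiscreteValuationRing O]
  [Field K₀] [CharZero K₀] [Algebra O K₀] [IsFractionRing O K₀]
variable {F₀ : Type u} [Field F₀] [Algebra K₀ F₀] [Algebra O F₀] [IsScalarTower O K₀ F₀]
variable {π : O} {W : Subring F₀} {V₁ V₂ : ValuationSubring F₀}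

/-- **`GOut` on the charts `chartAlg O F₀ {j^{±1}}`.** -/
theorem gOut_chart (j : F₀) (hj : Transcendental K₀ j) [FiniteDimensional K₀⟮j⟯ F₀]
    [IsFractionRing (chartAlg O F₀ {j}) F₀] [IsFractionRing (chartAlg O F₀ {j⁻¹}) F₀]
    (hπ : Irreducible π) (hT : TwoVal π W V₁ V₂)
    (hWp : IsSemiGaussRing W (algebraMap O (chartAlg O F₀ {j}) π))
    (hWm : IsSemiGaussRing W (algebraMap O (chartAlg O F₀ {j⁻¹}) π))
    (hdisc₁ : ∀ x : F₀, x ≠ 0 →
      ∃ n : ℤ, V₁.valuation x = V₁.valuation (algebraMap O F₀ π) ^ n)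
    (hdisc₂ : ∀ x : F₀, x ≠ 0 →
      ∃ n : ℤ, V₂.valuation x = V₂.valuation (algebraMap O F₀ π) ^ n)
    (E : Place K₀ F₀ → ℤ) (hE : {v : Place K₀ F₀ | E v ≠ 0}.Finite)
    (hdiv : ∀ x : F₀, x ≠ 0 → {v : Place K₀ F₀ | v.ord x ≠ 0}.Finite) :
    GOut K₀ (chartAlg O F₀ {j}) (chartAlg O F₀ {j⁻¹}) V₁ V₂ π E := by
  have hVp : ∀ b (r : chartAlg O F₀ {j}),
      algebraMap (chartAlg O F₀ {j}) F₀ r ∈ fam V₁ V₂ b := by
    intro b r
    have h := (hT.mem_iff _).1 (hWp.le r)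
    cases b
    · exact h.2
    · exact h.1
  have hVm : ∀ b (r : chartAlg O F₀ {j⁻¹}),
      algebraMap (chartAlg O F₀ {j⁻¹}) F₀ r ∈ fam V₁ V₂ b := by
    intro b r
    have h := (hT.mem_iff _).1 (hWm.le r)
    cases b
    · exact h.2
    · exact h.1
  have hπ₁ : algebraMap O F₀ π ∈ V₁ := V₁.nonunits_subset hT.pi_mem₁
  have hπ₂ : algebraMap O F₀ π ∈ V₂ := V₂.nonunits_subset hT.pi_mem₂
  refine gOut_of_forall V₁ V₂ π E fun H => ?_
  obtain ⟨g, hg0, -, -, hgE⟩ := exists_section_chart (K₀ := K₀) j hj hπ hT hWp hdisc₁ hdisc₂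
    hVp hVm E hE hdiv (fun N => by
      obtain ⟨i, hNi, ρ, h1, h2, hp, hm⟩ := H N
      refine ⟨ρ, h1, h2, fun 𝔫 h𝔫 hπ𝔫 => ?_, fun 𝔫 h𝔫 hπ𝔫 => ?_⟩
      · haveI := h𝔫.isPrime
        exact locApprox_of_tOutAt hVp hπ₁ hπ₂ E 𝔫 hNi.le (hp 𝔫 h𝔫 hπ𝔫)
      · haveI := h𝔫.isPrime
        exact locApprox_of_tOutAt hVm hπ₁ hπ₂ E 𝔫 hNi.le (hm 𝔫 h𝔫 hπ𝔫))
  exact ⟨g, hg0, hgE⟩

end Chart

/-! ### `GOut` at a good level -/

set_option maxHeartbeats 1600000 in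
set_option synthInstance.maxHeartbeats 400000 in
/-- **`GOut` at a good level** `K` of `X₀(M q)`, `q ∤ M`, residue characteristic `q`:
`O = baseRing A K`, `V₁ = gaussVS`, `V₂ = S₂.V`, charts `Rfin`, `Rinf`, for EVERY finitely
supported `E`. -/
theorem gOut_level (M q : ℕ) [NeZero M] [Fact q.Prime] (hqM : ¬ q ∣ M)
    (A : ValuationSubring Qbar) (hA : A.LiesOverPrime q)
    (K : IntermediateField ℚ Qbar) (hK : IsGoodLevel A q K)
    [IsDiscreteValuationRing ↥(baseRing A K)] [IsFractionRing ↥(baseRing A K) (Lvl K)]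
    [IsFractionRing ↥(Rfin (Lvl K) (M * q) (baseRing A K)) (FF (Lvl K) (M * q))]
    [IsFractionRing ↥(Rinf (Lvl K) (M * q) (baseRing A K)) (FF (Lvl K) (M * q))]
    (S₂ : Fermat.Agent.P3G.FibreTwo.SecondVal (Lvl K) M q (baseRing A K))
    (ϖ : ↥(baseRing A K)) (hϖ : Irreducible ϖ)
    (E : Place (Lvl K) (FF (Lvl K) (M * q)) → ℤ)
    (hE : {v : Place (Lvl K) (FF (Lvl K) (M * q)) | E v ≠ 0}.Finite) :
    GOut (Lvl K) ↥(Rfin (Lvl K) (M * q) (baseRing A K)) ↥(Rinf (Lvl K) (M * q) (baseRing A K))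
      (gaussVS (Lvl K) (M * q) (baseRing A K)) S₂.V ϖ E := by
  obtain ⟨hd₁, hd₂⟩ := disc_level M q hqM A hA K hK S₂ ϖ hϖ
  obtain ⟨-, -, hdata⟩ :=
    Fermat.Agent.S33.L.PointsUniform.levelData_of_secondVal M q hqM A hA K hK S₂ ϖ hϖ
  obtain ⟨hV, -, -⟩ := hdata 1 (Subgroup.one_mem _)
  haveI := Fermat.Agent.N4.ModPolySetting.finiteDimensional_FF (Lvl K) (M * q)
  exact gOut_chart (K₀ := Lvl K) (jF (Lvl K) (M * q))
    (Fermat.Agent.N4.FFAlgebraic.transcendental_jF (Lvl K) (M * q)) hϖ hV.twoVal hV.semiP hV.semiM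
    hd₁ hd₂ E hE (finite_ord_ne_zero_level (M * q) K)

end Fermat.Agent.S33.G.GOut
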