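/-
S33 (`moonshots` row 61), STEP G in the PROVIDER-CONTRACT shape of `S33/L/Contracts` (helper23):
**`gProv : Contracts.GProv M p A`** — at every good level `K` (for the place `A ∣ p`), every second
valuation `S₂`, every uniformiser `ϖ`, every divisor `Ez` with finite support:
`Skeleton.GOut (Lvl K) (chart jF) (chart jF⁻¹) gaussVS S₂.V ϖ Ez`.

It is `G/GOut.gOut_level` verbatim; the chart instances are the global ones of `L/Contracts`.
-/
import Mathlib
import Fermat.Agent.S33.G.GOut
import Fermat.Agent.S33.L.Contracts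

set_option autoImplicit false
set_option linter.unusedSectionVars false
set_option linter.dupNamespace false
set_option linter.style.haveILetI false

open ModularCurve AlgebraicCurve IntermediateField

noncomputable section

namespace Fermat.Agent.S33.G.GProv

open Fermat.Agent.N4.Setting Fermat.Agent.N4.Chart Fermat.Agent.N4.S18Glue Fermat.Agent.N4.BigDVR
  Fermat.Agent.P3G.Assembly.LevelStep
  Fermat.Agent.N4F.C Fermat.Agent.N4F.C.Levels
  Fermat.Agent.N4F.E.GaussDVR
  Fermat.Agent.S33.L.Skeleton Fermat.Agent.S33.L.Contracts Fermat.Agent.S33.G.GOut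

local notation "Qbar" => AlgebraicClosure ℚ

/-- **(G-out) at one good level, in the shape of `Contracts.GOutLevel`.** -/
theorem gOutLevel (M p : ℕ) [NeZero M] [Fact p.Prime] (hpM : ¬ p ∣ M)
    (A : ValuationSubring Qbar) (hA : A.LiesOverPrime p)
    (K : IntermediateField ℚ Qbar) (hK : IsGoodLevel A p K)
    [IsDiscreteValuationRing ↥(baseRing A K)]
    (S₂ : Fermat.Agent.P3G.FibreTwo.SecondVal (Lvl K) M p (baseRing A K))
    (ϖ : ↥(baseRing A K)) (hϖ : Irreducible ϖ) :
    GOutLevel A K (M * p) (gaussVS (Lvl K) (M * p) (baseRing A K)) S₂.V ϖ :=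
  fun Ez hEz => gOut_level M p hpM A hA K hK S₂ ϖ hϖ Ez hEz

/-- **STEP G provider** in the contract shape of `L/Contracts`. -/
theorem gProv (M p : ℕ) [NeZero M] [Fact p.Prime] (hpM : ¬ p ∣ M)
    (A : ValuationSubring Qbar) (hA : A.LiesOverPrime p) : GProv M p A :=
  fun K hK _ S₂ ϖ hϖ => gOutLevel M p hpM A hA K hK S₂ ϖ hϖ

end Fermat.Agent.S33.G.GProv
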