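/-
S33 (`moonshots` row 61), STEP G, instance layer (helper23): **the module of sections of `𝒪(-E)` on
a chart**, in the abstract chart framework of `P3G/Krull`, `P3G/KrullChart`, `P3G/UCrit`.

`R` a chart (noetherian integrally closed domain, algebra over the discrete valuation ring `O` with
uniformiser `ϖ`, fraction field `F ⊇ K = Frac O`), `V i` the finitely many vertical valuation rings,
`E : Place K F → ℤ` a "divisor".

* `secMod V E : Submodule R F` : `{g | (∀ i, g ∈ V i) ∧ ∀ v ⊇ R, |g|_v ≤ exp (-(E v))}`
  (for `g ≠ 0` the last condition is `E v ≤ v.ord g` : `adicValuation_le_exp_neg_iff`);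
* `exists_smul_mem_secMod` : **(G1)-input**: an element `η` which satisfies the conditions at the
  vertical components through a prime `𝔫` and at the places centred at `𝔫` lies in
  `(secMod V E)_𝔫`, i.e. `t • η ∈ secMod V E` for some `t ∉ 𝔫`;
* `exists_mul_eq_of_mem_secMod` : `d • secMod V E ⊆ R` for a suitable `d ≠ 0`; `secMod_fg`;
* `mem_secMod_of_smul_mem` : saturation with respect to nonzero constants (the property `hsat` of
  `Sections.exists_global_approx`);
* `eq_of_le_of_sum_eq` : (G3) two finitely supported functions with `b ≤ a` and the same weighted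
  degree are equal.
-/
import Mathlib
import Fermat.Agent.P3G.UCrit

set_option autoImplicit false
set_option linter.unusedSectionVars false
set_option linter.style.haveILetI false

namespace Fermat.Agent.S33.G.SectionModule

open Fermat.Agent.N4.Cover.Globalize Fermat.Agent.P3G.Krull Fermat.Agent.P3G.KrullChart
open AlgebraicCurve
open Fermat.Agent.N4F.C.LocalMult

/-! ### Valuation form of the order conditions -/

section Val

variable {K F : Type*} [Field K] [Field F] [Algebra K F] (v : Place K F)

/-- For `g ≠ 0` the valuation condition is the order condition. -/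
theorem adicValuation_le_exp_neg_iff {g : F} (hg : g ≠ 0) (n : ℤ) :
    v.adicValuation g ≤ WithZero.exp (-n) ↔ n ≤ v.ord g := by
  rw [← WithZero.log_le_iff_le_exp (v.adicValuation_ne_zero hg), Place.ord]
  constructor <;> intro h <;> omega

/-- Elements of the valuation ring have valuation `≤ 1`. -/
theorem adicValuation_le_one_of_mem {x : F} (hx : x ∈ v.toValuationSubring) :
    v.adicValuation x ≤ 1 := by
  have := v.heightOneSpectrum.valuation_le_one (K := F) (⟨x, hx⟩ : v.toValuationSubring)
  exact this

/-- Nonunits of the valuation ring have valuation `≤ exp (-1)`. -/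
theorem adicValuation_le_exp_neg_one_of_mem_nonunits {x : F}
    (hx : x ∈ v.toValuationSubring.nonunits) : v.adicValuation x ≤ WithZero.exp (-1 : ℤ) := by
  have hx' : x ∈ v.toValuationSubring := ValuationSubring.nonunits_le hx
  have hmem : (⟨x, hx'⟩ : v.toValuationSubring) ∈ v.heightOneSpectrum.asIdeal := by
    rw [Place.heightOneSpectrum_asIdeal, IsLocalRing.mem_maximalIdeal, mem_nonunits_iff]
    intro hu
    rw [ValuationSubring.mem_nonunits_iff_exists_mem_maximalIdeal] at hx
    obtain ⟨hx'', hmax⟩ := hx
    exact (IsLocalRing.mem_maximalIdeal _).1 hmax hu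
  have h1 : v.heightOneSpectrum.valuation F ((⟨x, hx'⟩ : v.toValuationSubring) : F) < 1 :=
    (v.heightOneSpectrum.valuation_lt_one_iff_mem (K := F) _).2 hmem
  have h2 : v.adicValuation x < 1 := h1
  rcases eq_or_ne x 0 with rfl | hx0
  · rw [map_zero]; exact zero_le
  · rw [← WithZero.log_le_iff_le_exp (v.adicValuation_ne_zero hx0)]
    have h3 : WithZero.log (v.adicValuation x) < 0 := by
      rw [WithZero.log_lt_iff_lt_exp (v.adicValuation_ne_zero hx0), WithZero.exp_zero]
      exact h2
    omega

/-- Constants have valuation `1`. -/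
theorem adicValuation_algebraMap {c : K} (hc : c ≠ 0) : v.adicValuation (algebraMap K F c) = 1 := by
  have h1 : v.adicValuation (algebraMap K F c) ≤ 1 :=
    adicValuation_le_one_of_mem v (v.algebraMap_mem' c)
  have h2 : v.adicValuation (algebraMap K F c⁻¹) ≤ 1 :=
    adicValuation_le_one_of_mem v (v.algebraMap_mem' c⁻¹)
  have h3 : v.adicValuation (algebraMap K F c) * v.adicValuation (algebraMap K F c⁻¹) = 1 := by
    rw [← map_mul, ← map_mul, mul_inv_cancel₀ hc, map_one, map_one]
  refine le_antisymm h1 ?_
  by_contra hlt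
  rw [not_le] at hlt
  have : v.adicValuation (algebraMap K F c) * v.adicValuation (algebraMap K F c⁻¹) < 1 := by
    calc _ ≤ v.adicValuation (algebraMap K F c) * 1 := by gcongr
      _ = v.adicValuation (algebraMap K F c) := mul_one _
      _ < 1 := hlt
  rw [h3] at this
  exact lt_irrefl _ this

end Val

/-! ### The module of sections -/

section SecMod

variable {O K F R : Type*}
  [CommRing O] [IsDomain O] [IsDiscreteValuationRing O]
  [Field K] [Algebra O K] [IsFractionRing O K]
  [Field F] [Algebra K F] [Algebra O F] [IsScalarTower O K F]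
  [CommRing R] [IsDomain R] [IsNoetherianRing R]
  [Algebra R F] [IsFractionRing R F] [Algebra O R] [IsScalarTower O R F]

variable {ι : Type*} (V : ι → ValuationSubring F) (hV : ∀ i (r : R), algebraMap R F r ∈ V i)
  (E : Place K F → ℤ)

include hV in
/-- The sections of `𝒪(-E)` on the chart `R`: integral at the vertical valuation rings, and of
order `≥ E v` at every place `v` of `F / K` containing `R`. -/
def secMod : Submodule R F where
  carrier := {g | (∀ i, g ∈ V i) ∧
    ∀ v : Place K F, Contains R v → v.adicValuation g ≤ WithZero.exp (-(E v))}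
  add_mem' := by
    rintro a b ⟨ha1, ha2⟩ ⟨hb1, hb2⟩
    refine ⟨fun i => (V i).add_mem _ _ (ha1 i) (hb1 i), fun v hv => ?_⟩
    exact le_trans (Valuation.map_add _ _ _) (max_le (ha2 v hv) (hb2 v hv))
  zero_mem' := ⟨fun i => (V i).zero_mem, fun v _ => by rw [map_zero]; exact zero_le⟩
  smul_mem' := by
    rintro c g ⟨hg1, hg2⟩
    refine ⟨fun i => ?_, fun v hv => ?_⟩
    · rw [Algebra.smul_def]; exact (V i).mul_mem _ _ (hV i c) (hg1 i)
    · rw [Algebra.smul_def, map_mul]
      calc v.adicValuation (algebraMap R F c) * v.adicValuation g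
          ≤ 1 * WithZero.exp (-(E v)) :=
            mul_le_mul' (adicValuation_le_one_of_mem v (hv c)) (hg2 v hv)
        _ = WithZero.exp (-(E v)) := one_mul _

theorem mem_secMod_iff {g : F} : g ∈ secMod V hV E ↔ (∀ i, g ∈ V i) ∧
    ∀ v : Place K F, Contains R v → v.adicValuation g ≤ WithZero.exp (-(E v)) := Iff.rfl

end SecMod

/-! ### Clearing finitely many conditions by one element outside a prime -/

section Common

variable {R F : Type*} [CommRing R] [Field F] [Algebra R F]

/-- Finitely many conditions on `F`, each stable under multiplication by `R` and each satisfied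
by `t • η` for some `t ∉ 𝔫`, are simultaneously satisfied by `t • η` for one `t ∉ 𝔫`. -/
theorem exists_common {κ : Type*} [Finite κ] (C : κ → F → Prop)
    (hC : ∀ k (r : R) (x : F), C k x → C k (r • x)) (𝔫 : Ideal R) [h𝔫 : 𝔫.IsPrime] (η : F)
    (h : ∀ k, ∃ t : R, t ∉ 𝔫 ∧ C k (t • η)) : ∃ t : R, t ∉ 𝔫 ∧ ∀ k, C k (t • η) := by
  classical
  haveI := Fintype.ofFinite κ
  choose t ht hCt using h
  refine ⟨∏ k, t k, ?_, fun k => ?_⟩
  · intro hmem
    obtain ⟨k, -, hk⟩ := (Ideal.IsPrime.prod_mem_iff (hp := h𝔫)).1 hmem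
    exact ht k hk
  · rw [← Finset.mul_prod_erase Finset.univ t (Finset.mem_univ k), mul_comm, mul_smul]
    exact hC k _ _ (hCt k)

end Common

/-! ### The (G1)-input: local generators lie in the localisation of `secMod` -/

section Local

variable {O K F R : Type*}
  [CommRing O] [IsDomain O] [IsDiscreteValuationRing O]
  [Field K] [Algebra O K] [IsFractionRing O K]
  [Field F] [Algebra K F] [Algebra O F] [IsScalarTower O K F]
  [CommRing R] [IsDomain R] [IsNoetherianRing R]
  [Algebra R F] [IsFractionRing R F] [Algebra O R] [IsScalarTower O R F]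

variable {ι : Type*} [Finite ι] (V : ι → ValuationSubring F)
  (hV : ∀ i (r : R), algebraMap R F r ∈ V i) (E : Place K F → ℤ)

/-- A power of an element of the centre of `v` pushes the valuation of `η` below any bound. -/
theorem exists_pow_smul_le (v : Place K F) (hv : Contains R v) {t : R} (ht : t ∈ centreIdeal hv)
    (η : F) (n : ℤ) : ∃ m : ℕ, v.adicValuation ((t ^ m) • η) ≤ WithZero.exp (-n) := by
  rcases eq_or_ne η 0 with rfl | hη
  · exact ⟨0, by rw [smul_zero, map_zero]; exact zero_le⟩
  have ht1 : v.adicValuation (algebraMap R F t) ≤ WithZero.exp (-1 : ℤ) :=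
    adicValuation_le_exp_neg_one_of_mem_nonunits v ((mem_centreIdeal_iff hv).1 ht)
  refine ⟨(n - v.ord η).toNat, ?_⟩
  rw [Algebra.smul_def, map_mul, map_pow, map_pow]
  have h1 : v.adicValuation (algebraMap R F t) ^ (n - v.ord η).toNat ≤
      WithZero.exp (-1 : ℤ) ^ (n - v.ord η).toNat := pow_le_pow_left' ht1 _
  have h2 : v.adicValuation η = WithZero.exp (-(v.ord η)) := by
    rw [Place.ord, neg_neg, WithZero.exp_log (v.adicValuation_ne_zero hη)]
  calc v.adicValuation (algebraMap R F t) ^ (n - v.ord η).toNat * v.adicValuation η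
      ≤ WithZero.exp (-1 : ℤ) ^ (n - v.ord η).toNat * WithZero.exp (-(v.ord η)) := by
        rw [h2]; exact mul_le_mul' h1 le_rfl
    _ = WithZero.exp (((n - v.ord η).toNat : ℤ) * (-1) + -(v.ord η)) := by
        rw [WithZero.exp_add, ← WithZero.exp_nsmul, nsmul_eq_mul]
    _ ≤ WithZero.exp (-n) := by
        rw [WithZero.exp_le_exp]
        have := Int.self_le_toNat (n - v.ord η)
        omega

/-- **(G1)-input.**  Let `𝔫` be a prime of the chart `R` and `η ∈ F` such that `η` is integral at
the vertical valuation rings through `𝔫` and has order `≥ E v` at every place centred at `𝔫`; assume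
that `η` violates the order conditions at finitely many places only, and that the vertical valuation
rings are archimedean with respect to their centres.  Then `t • η ∈ secMod V E` for some `t ∉ 𝔫`. -/
theorem exists_smul_mem_secMod (𝔫 : Ideal R) [h𝔫 : 𝔫.IsPrime] (η : F)
    (harch : ∀ i (x : F) (c : R), c ∈ vCentre (V i) (hV i) →
      ∃ m : ℕ, (c ^ m) • x ∈ V i)
    (hvert : ∀ i, vCentre (V i) (hV i) ≤ 𝔫 → η ∈ V i)
    (hhor : ∀ (v : Place K F) (hv : Contains R v), centreIdeal hv ≤ 𝔫 →
      v.adicValuation η ≤ WithZero.exp (-(E v)))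
    (hfin : {v : Place K F | Contains R v ∧
      ¬ v.adicValuation η ≤ WithZero.exp (-(E v))}.Finite) :
    ∃ t : R, t ∉ 𝔫 ∧ t • η ∈ secMod V hV E := by
  classical
  -- the finitely many conditions: vertical ones and the bad horizontal ones
  let B := {v : Place K F | Contains R v ∧ ¬ v.adicValuation η ≤ WithZero.exp (-(E v))}
  haveI : Finite B := hfin
  let C : ι ⊕ B → F → Prop := fun k x =>
    match k with
    | Sum.inl i => x ∈ V i
    | Sum.inr v => (v : Place K F).adicValuation x ≤ WithZero.exp (-(E v))
  have hC : ∀ k (r : R) (x : F), C k x → C k (r • x) := by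
    rintro (i | v) r x hx
    · show r • x ∈ V i
      rw [Algebra.smul_def]; exact (V i).mul_mem _ _ (hV i r) hx
    · show (v : Place K F).adicValuation (r • x) ≤ _
      rw [Algebra.smul_def, map_mul]
      calc _ ≤ 1 * WithZero.exp (-(E v)) :=
            mul_le_mul' (adicValuation_le_one_of_mem _ (v.2.1 r)) hx
        _ = _ := one_mul _
  have hex : ∀ k, ∃ t : R, t ∉ 𝔫 ∧ C k (t • η) := by
    rintro (i | v)
    · by_cases hi : vCentre (V i) (hV i) ≤ 𝔫
      · exact ⟨1, fun h => h𝔫.ne_top ((Ideal.eq_top_iff_one _).2 h), by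
          show (1 : R) • η ∈ V i
          rw [one_smul]; exact hvert i hi⟩
      · obtain ⟨c, hc, hcn⟩ := Set.not_subset.1 hi
        obtain ⟨m, hm⟩ := harch i η c hc
        exact ⟨c ^ m, fun h => hcn (h𝔫.mem_of_pow_mem m h), hm⟩
    · have hv : Contains R (v : Place K F) := v.2.1
      have hcen : ¬ centreIdeal hv ≤ 𝔫 := fun hle => v.2.2 (hhor v hv hle)
      obtain ⟨t, ht, htn⟩ := Set.not_subset.1 hcen
      obtain ⟨m, hm⟩ := exists_pow_smul_le (v : Place K F) hv ht η (E v)
      exact ⟨t ^ m, fun h => htn (h𝔫.mem_of_pow_mem m h), hm⟩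
  obtain ⟨t, ht, hCt⟩ := exists_common C hC 𝔫 η hex
  refine ⟨t, ht, fun i => hCt (Sum.inl i), fun v hv => ?_⟩
  by_cases hbad : v.adicValuation η ≤ WithZero.exp (-(E v))
  · rw [Algebra.smul_def, map_mul]
    calc _ ≤ 1 * WithZero.exp (-(E v)) :=
          mul_le_mul' (adicValuation_le_one_of_mem _ (hv t)) hbad
      _ = _ := one_mul _
  · exact hCt (Sum.inr ⟨v, hv, hbad⟩)

end Local

/-! ### `secMod` is contained in `d⁻¹ R`, hence finitely generated -/

section Bounded

variable {O K F R : Type*}
  [CommRing O] [IsDomain O] [IsDiscreteValuationRing O]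
  [Field K] [Algebra O K] [IsFractionRing O K]
  [Field F] [Algebra K F] [Algebra O F] [IsScalarTower O K F]
  [CommRing R] [IsDomain R] [IsNoetherianRing R]
  [Algebra R F] [IsFractionRing R F] [Algebra O R] [IsScalarTower O R F]

variable {ϖ : O} (hϖ : Irreducible ϖ)
variable {ι : Type*} [Finite ι] (V : ι → ValuationSubring F)
  (hV : ∀ i (r : R), algebraMap R F r ∈ V i)
  (hϖV : ∀ i, algebraMap R F (algebraMap O R ϖ) ∈ (V i).nonunits)
  (hsat : ∀ r : R, (∀ i, algebraMap R F r ∈ (V i).nonunits) → algebraMap O R ϖ ∣ r)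
  (E : Place K F → ℤ)

include hϖ hϖV hsat in
/-- There is `d ≠ 0` in `R` with `d • secMod V E ⊆ R`, provided `E` is negative at finitely many
places containing `R` only. -/
theorem exists_mul_eq_of_mem_secMod [IsIntegrallyClosed R]
    (hfin : {v : Place K F | Contains R v ∧ E v < 0}.Finite) :
    ∃ d : R, d ≠ 0 ∧ ∀ g ∈ secMod V hV E, ∃ r : R, algebraMap R F r = d • g := by
  classical
  let B := {v : Place K F | Contains R v ∧ E v < 0}
  haveI : Finite B := hfin
  haveI := Fintype.ofFinite B
  have hex : ∀ v : B, ∃ t : R, t ≠ 0 ∧ t ∈ centreIdeal (S := R) v.2.1 := by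
    intro v
    have hne := centreIdeal_ne_bot (S := R) v.2.1
    obtain ⟨t, ht, ht0⟩ := Submodule.exists_mem_ne_zero_of_ne_bot hne
    exact ⟨t, ht0, ht⟩
  choose t ht0 ht using hex
  let d : R := ∏ v : B, t v ^ (-(E v)).toNat
  have hd0 : d ≠ 0 := Finset.prod_ne_zero_iff.2 fun v _ => pow_ne_zero _ (ht0 v)
  refine ⟨d, hd0, fun g hg => ?_⟩
  obtain ⟨hg1, hg2⟩ := hg
  refine exists_algebraMap_eq_of_valuationSubrings (K := K) hϖ V hV hϖV hsat (d • g)
    (fun i => by rw [Algebra.smul_def]; exact (V i).mul_mem _ _ (hV i d) (hg1 i)) ?_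
  intro v hv
  -- `|d g|_v ≤ 1`
  have hval : v.adicValuation (d • g) ≤ 1 := by
    rw [Algebra.smul_def, map_mul]
    by_cases hneg : E v < 0
    · -- `v ∈ B`
      have hmul : d = (∏ w ∈ Finset.univ.erase (⟨v, hv, hneg⟩ : B), t w ^ (-(E w)).toNat) *
          t ⟨v, hv, hneg⟩ ^ (-(E v)).toNat := by
        rw [mul_comm]
        exact (Finset.mul_prod_erase Finset.univ (fun w : B => t w ^ (-(E w)).toNat)
          (Finset.mem_univ _)).symm
      rw [hmul, map_mul, map_mul, map_pow, map_pow, mul_assoc]
      have h1 : v.adicValuation (algebraMap R F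
          (∏ w ∈ Finset.univ.erase (⟨v, hv, hneg⟩ : B), t w ^ (-(E w)).toNat)) ≤ 1 :=
        adicValuation_le_one_of_mem v (hv _)
      have h2 : v.adicValuation (algebraMap R F (t ⟨v, hv, hneg⟩)) ≤ WithZero.exp (-1 : ℤ) :=
        adicValuation_le_exp_neg_one_of_mem_nonunits v
          ((mem_centreIdeal_iff (S := R) hv).1 (ht ⟨v, hv, hneg⟩))
      have h3 : v.adicValuation (algebraMap R F (t ⟨v, hv, hneg⟩)) ^ (-(E v)).toNat *
          v.adicValuation g ≤ 1 := by
        calc _ ≤ WithZero.exp (-1 : ℤ) ^ (-(E v)).toNat * WithZero.exp (-(E v)) :=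
              mul_le_mul' (pow_le_pow_left' h2 _) (hg2 v hv)
          _ = WithZero.exp ((((-(E v)).toNat : ℤ)) * (-1) + -(E v)) := by
              rw [WithZero.exp_add, ← WithZero.exp_nsmul, nsmul_eq_mul]
          _ ≤ WithZero.exp 0 := by
              rw [WithZero.exp_le_exp]
              have := Int.toNat_of_nonneg (show (0 : ℤ) ≤ -(E v) by omega)
              omega
          _ = 1 := WithZero.exp_zero
      calc _ ≤ 1 * 1 := mul_le_mul' h1 h3
        _ = 1 := one_mul 1
    · have h1 : v.adicValuation (algebraMap R F d) ≤ 1 := adicValuation_le_one_of_mem v (hv d)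
      have h2 : v.adicValuation g ≤ 1 := by
        refine le_trans (hg2 v hv) ?_
        rw [← WithZero.exp_zero, WithZero.exp_le_exp]
        omega
      calc _ ≤ 1 * 1 := mul_le_mul' h1 h2
        _ = 1 := one_mul 1
  -- valuation `≤ 1` means membership
  rcases eq_or_ne (d • g) 0 with h0 | h0
  · rw [h0]; exact zero_mem _
  · rw [Fermat.Agent.S24.PlaceExtend.mem_iff_ord_nonneg v h0,
      ← adicValuation_le_exp_neg_iff v h0 0, neg_zero, WithZero.exp_zero]
    exact hval

include hϖ hϖV hsat in
/-- `secMod V E` is a finitely generated `R`-module. -/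
theorem secMod_fg [IsIntegrallyClosed R]
    (hfin : {v : Place K F | Contains R v ∧ E v < 0}.Finite) : (secMod V hV E).FG := by
  obtain ⟨d, hd0, hd⟩ := exists_mul_eq_of_mem_secMod hϖ V hV hϖV hsat E hfin
  have hdF : algebraMap R F d ≠ 0 := by
    rw [Ne, map_eq_zero_iff _ (IsFractionRing.injective R F)]; exact hd0
  let m : F →ₗ[R] F := LinearMap.lsmul R F d
  have hm : Function.Injective m := by
    intro a b hab
    have : d • a = d • b := hab
    rw [Algebra.smul_def, Algebra.smul_def] at this
    exact mul_left_cancel₀ hdF this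
  apply Submodule.fg_of_fg_map_injective m hm
  -- the image lies in the range of `R → F`, a noetherian module
  let Rg : Submodule R F := LinearMap.range (Algebra.linearMap R F)
  haveI : IsNoetherian R Rg :=
    isNoetherian_of_surjective (Algebra.linearMap R F).rangeRestrict
      (LinearMap.range_rangeRestrict _)
  have hle : (secMod V hV E).map m ≤ Rg := by
    rintro _ ⟨g, hg, rfl⟩
    obtain ⟨r, hr⟩ := hd g hg
    exact ⟨r, hr⟩
  have h1 : (((secMod V hV E).map m).comap Rg.subtype).FG := IsNoetherian.noetherian _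
  have h2 := h1.map Rg.subtype
  rwa [Submodule.map_comap_subtype, inf_eq_right.2 hle] at h2

end Bounded

/-! ### Saturation with respect to constants, and the degree argument -/

section Sat

variable {O K F R : Type*}
  [CommRing O] [IsDomain O]
  [Field K] [Algebra O K] [IsFractionRing O K]
  [Field F] [Algebra K F] [Algebra O F] [IsScalarTower O K F]
  [CommRing R] [Algebra R F]

variable {ι : Type*} (V : ι → ValuationSubring F) (hV : ∀ i (r : R), algebraMap R F r ∈ V i)
  (E : Place K F → ℤ)

/-- Nonzero constants of `O` have valuation one at every place of `F / K`. -/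
theorem adicValuation_algebraMap_O (v : Place K F) {c : O} (hc : c ≠ 0) :
    v.adicValuation (algebraMap O F c) = 1 := by
  rw [IsScalarTower.algebraMap_apply O K F]
  exact adicValuation_algebraMap v
    (by rw [Ne, map_eq_zero_iff _ (IsFractionRing.injective O K)]; exact hc)

/-- **Saturation**: if `c • w ∈ secMod V E` for a nonzero constant `c ∈ O` and `w` is integral at
the vertical valuation rings, then `w ∈ secMod V E`. -/
theorem mem_secMod_of_smul_mem {c : O} (hc : c ≠ 0) {w : F} (hw : ∀ i, w ∈ V i)
    (h : algebraMap O F c * w ∈ secMod V hV E) : w ∈ secMod V hV E := by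
  refine ⟨hw, fun v hv => ?_⟩
  have := h.2 v hv
  rwa [map_mul, adicValuation_algebraMap_O v hc, one_mul] at this

end Sat

section Degree

/-- **(G3)**: two functions with `b ≤ a` on a finite set and the same weighted sum (positive
weights) agree on that set. -/
theorem eq_of_le_of_sum_eq {X : Type*} (s : Finset X) (a b w : X → ℤ)
    (hw : ∀ x ∈ s, 0 < w x) (hle : ∀ x ∈ s, b x ≤ a x)
    (hsum : ∑ x ∈ s, w x * a x = ∑ x ∈ s, w x * b x) : ∀ x ∈ s, a x = b x := by
  have h0 : ∑ x ∈ s, w x * (a x - b x) = 0 := by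
    simp only [mul_sub, Finset.sum_sub_distrib, hsum, sub_self]
  have hnn : ∀ x ∈ s, 0 ≤ w x * (a x - b x) := fun x hx =>
    mul_nonneg (hw x hx).le (sub_nonneg.2 (hle x hx))
  have := (Finset.sum_eq_zero_iff_of_nonneg hnn).1 h0
  intro x hx
  have h1 := this x hx
  rcases mul_eq_zero.1 h1 with h2 | h2
  · exact absurd h2 (hw x hx).ne'
  · exact sub_eq_zero.1 h2

end Degree

end Fermat.Agent.S33.G.SectionModule
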