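/-
S33 (`moonshots` row 61, helper8's route), STEP G, abstract part (helper23): **formal functions for
SECTIONS of a rank-one reflexive sheaf on a two-chart model** — Mathlib only.

Setting of the application: `O'` a discrete valuation ring with uniformiser `ϖ`, `F` the function
field, `R₊ R₋` the two charts, `W = V₁ ∩ V₂` the semilocal ring of the vertical valuations,
`M₊ M₋ ⊆ W` the modules of sections of `𝒪(-E)` on the two charts, `M₀ = M₊[1/j]` the sections on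
the intersection, `ρ_N ∈ W` an approximation modulo `ϖ^N` of the pair of generic roots.

* (G1) `mem_of_forall_maximal` : local–global principle for membership in a submodule
  (`ρ ∈ M₊ + ϖ^N W` as soon as this holds after localising at every maximal ideal of the chart);
* (G2) `exists_global_approx` : two chart-wise approximants `x ∈ M₊`, `y ∈ M₋` of `ρ` modulo `ϖ^N`
  glue to a GLOBAL section `g ∈ M₊ ∩ M₋` with `g ≡ ρ` modulo `ϖ^(N-c)`, `c` a bound for the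
  `ϖ`-power torsion of `H¹ = M₀ / (M₊ + M₋)`;
* (G2-bdd) `exists_bound_of_noetherian`, `exists_torsion_bound` : such a bound exists when `H¹` is
  finitely generated over a noetherian ring;
* (G2-fin) `exists_finset_sup` : generalisation of `N4/ChartFinite` to modules: if `M₊` is spanned
  over `O` by the `J ^ n e` (`e` in a finite set, `J` = multiplication by `j`), every `e` lies in
  `J ^ a M₋` for `a ≥ c`, and `M₀ ⊆ ⋃ J ^ (-a) M₊`, then `M₀ ⊆ M₊ + M₋ + (a finitely generated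
  module)`;
* `exists_torsion_bound_of_span` : (G2-fin) + (G2-bdd) = the hypothesis `hbdd` of (G2).
-/
import Mathlib

set_option autoImplicit false

namespace Fermat.Agent.S33.G.Sections

/-! ### (G1) local–global principle for membership -/

section LocalGlobal

variable {R W : Type*} [CommRing R] [AddCommGroup W] [Module R W]

/-- **(G1)**: an element which lies in a submodule after multiplication by an element outside
each maximal ideal lies in the submodule. -/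
theorem mem_of_forall_maximal (M : Submodule R W) (ρ : W)
    (h : ∀ 𝔫 : Ideal R, 𝔫.IsMaximal → ∃ t : R, t ∉ 𝔫 ∧ t • ρ ∈ M) : ρ ∈ M := by
  classical
  let I : Ideal R :=
    { carrier := {t | t • ρ ∈ M}
      add_mem' := fun {a b} ha hb => by
        change a • ρ ∈ M at ha; change b • ρ ∈ M at hb; change (a + b) • ρ ∈ M
        rw [add_smul]; exact M.add_mem ha hb
      zero_mem' := by change (0 : R) • ρ ∈ M; rw [zero_smul]; exact M.zero_mem
      smul_mem' := fun c a ha => by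
        change a • ρ ∈ M at ha; change (c * a) • ρ ∈ M
        rw [mul_smul]; exact M.smul_mem c ha }
  by_contra hρ
  have hI : I ≠ ⊤ := by
    intro h1
    have h2 : (1 : R) ∈ I := h1 ▸ Submodule.mem_top
    have h3 : (1 : R) • ρ ∈ M := h2
    rw [one_smul] at h3
    exact hρ h3
  obtain ⟨𝔫, h𝔫, hle⟩ := Ideal.exists_le_maximal I hI
  obtain ⟨t, ht, htρ⟩ := h 𝔫 h𝔫
  exact ht (hle htρ)

/-- (G1) in the shape used on a chart: `ρ ∈ M + Q` (`Q = ϖ^N W`). -/
theorem exists_add_of_forall_maximal (M Q : Submodule R W) (ρ : W)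
    (h : ∀ 𝔫 : Ideal R, 𝔫.IsMaximal → ∃ t : R, t ∉ 𝔫 ∧ ∃ m ∈ M, ∃ q ∈ Q, t • ρ = m + q) :
    ∃ x ∈ M, ∃ q ∈ Q, ρ = x + q := by
  have hmem : ρ ∈ M ⊔ Q := by
    refine mem_of_forall_maximal (M ⊔ Q) ρ fun 𝔫 h𝔫 => ?_
    obtain ⟨t, ht, m, hm, q, hq, e⟩ := h 𝔫 h𝔫
    exact ⟨t, ht, e ▸ Submodule.add_mem_sup hm hq⟩
  obtain ⟨x, hx, q, hq, e⟩ := Submodule.mem_sup.mp hmem
  exact ⟨x, hx, q, hq, e.symm⟩

end LocalGlobal

/-! ### (G2) gluing the two chart-wise approximants -/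

section Glue

variable {O U : Type*} [CommRing O] [AddCommGroup U] [Module O U]

/-- **(G2)**: `x ∈ M₊`, `y ∈ M₋`, both `≡ ρ` modulo `ϖ^N W`; `M₀ ∩ ϖ^n W = ϖ^n M₀`; the `ϖ`-power
torsion of `M₀ / (M₊ + M₋)` is killed by `ϖ^c`, `c ≤ N`.  Then there is a global section
`g ∈ M₊ ∩ M₋` with `g ≡ ρ` modulo `ϖ^(N-c) W`. -/
theorem exists_global_approx (ϖ : O) (Mp Mm M0 Wm : Submodule O U)
    (hp0 : Mp ≤ M0) (hm0 : Mm ≤ M0) (hpW : Mp ≤ Wm) (c : ℕ)
    (hsat : ∀ (n : ℕ) (u : U), u ∈ M0 → (∃ w ∈ Wm, u = ϖ ^ n • w) → ∃ m0 ∈ M0, u = ϖ ^ n • m0)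
    (hbdd : ∀ (n : ℕ) (m0 : U), m0 ∈ M0 → ϖ ^ n • m0 ∈ Mp ⊔ Mm → ϖ ^ c • m0 ∈ Mp ⊔ Mm)
    {N : ℕ} (hcN : c ≤ N) {x y ρ : U} (hx : x ∈ Mp) (hy : y ∈ Mm)
    (hxρ : ∃ w ∈ Wm, x - ρ = ϖ ^ N • w) (hyρ : ∃ w ∈ Wm, y - ρ = ϖ ^ N • w) :
    ∃ g ∈ Mp ⊓ Mm, ∃ w ∈ Wm, g - ρ = ϖ ^ (N - c) • w := by
  obtain ⟨w₁, hw₁, e₁⟩ := hxρ
  obtain ⟨w₂, hw₂, e₂⟩ := hyρ
  have hxy0 : x - y ∈ M0 := M0.sub_mem (hp0 hx) (hm0 hy)
  have hxyW : ∃ w ∈ Wm, x - y = ϖ ^ N • w := by
    refine ⟨w₁ - w₂, Wm.sub_mem hw₁ hw₂, ?_⟩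
    rw [smul_sub, ← e₁, ← e₂]; abel
  obtain ⟨m0, hm0M, e0⟩ := hsat N (x - y) hxy0 hxyW
  have hsup : ϖ ^ N • m0 ∈ Mp ⊔ Mm := by
    rw [← e0]
    exact Submodule.sub_mem _ (Submodule.mem_sup_left hx) (Submodule.mem_sup_right hy)
  obtain ⟨mp, hmp, mm, hmm, e3⟩ := Submodule.mem_sup.mp (hbdd N m0 hm0M hsup)
  have hpow : ϖ ^ N = ϖ ^ (N - c) * ϖ ^ c := by
    rw [← pow_add, Nat.sub_add_cancel hcN]
  have e4 : x - y = ϖ ^ (N - c) • mp + ϖ ^ (N - c) • mm := by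
    rw [e0, hpow, mul_smul, ← e3, smul_add]
  refine ⟨x - ϖ ^ (N - c) • mp, ⟨Mp.sub_mem hx (Mp.smul_mem _ hmp), ?_⟩,
    ϖ ^ c • w₁ - mp, Wm.sub_mem (Wm.smul_mem _ hw₁) (hpW hmp), ?_⟩
  · have : x - ϖ ^ (N - c) • mp = y + ϖ ^ (N - c) • mm := by
      have h5 : x = y + (ϖ ^ (N - c) • mp + ϖ ^ (N - c) • mm) := by
        rw [← e4]; abel
      rw [h5]; abel
    rw [this]
    exact Mm.add_mem hy (Mm.smul_mem _ hmm)
  · have : x - ϖ ^ (N - c) • mp - ρ = (x - ρ) - ϖ ^ (N - c) • mp := by abel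
    rw [this, e₁, smul_sub, ← mul_smul, ← hpow]

end Glue

/-! ### (G2-bdd) bounded torsion in a noetherian module -/

section Bound

variable {O H : Type*} [CommRing O] [AddCommGroup H] [Module O H]

/-- In a noetherian module the `ϖ`-power torsion is killed by one power of `ϖ`. -/
theorem exists_bound_of_noetherian [IsNoetherian O H] (ϖ : O) :
    ∃ c : ℕ, ∀ (n : ℕ) (h : H), ϖ ^ n • h = 0 → ϖ ^ c • h = 0 := by
  have hK : ∀ (n : ℕ) (h : H), h ∈ LinearMap.ker (LinearMap.lsmul O H (ϖ ^ n)) ↔ ϖ ^ n • h = 0 :=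
    fun n h => by rw [LinearMap.mem_ker, LinearMap.lsmul_apply]
  let K : ℕ →o Submodule O H :=
    { toFun := fun n => LinearMap.ker (LinearMap.lsmul O H (ϖ ^ n))
      monotone' := by
        intro a b hab h hh
        rw [hK] at hh ⊢
        obtain ⟨d, rfl⟩ := Nat.exists_eq_add_of_le hab
        rw [pow_add, mul_comm, mul_smul, hh, smul_zero] }
  obtain ⟨c, hc⟩ := monotone_stabilizes_iff_noetherian.mpr inferInstance K
  refine ⟨c, fun n h hn => ?_⟩
  have hmemn : h ∈ K n := (hK n h).mpr hn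
  have hmem : h ∈ K c := by
    rcases le_total c n with hcn | hnc
    · rw [hc n hcn]; exact hmemn
    · exact K.monotone hnc hmemn
  exact (hK c h).mp hmem

variable {U : Type*} [AddCommGroup U] [Module O U]

/-- The hypothesis `hbdd` of (G2) when `M₀ ⊆ Q + (finitely generated)` over a noetherian ring
(`Q = M₊ + M₋`). -/
theorem exists_torsion_bound [IsNoetherianRing O] (ϖ : O) (Q M0 : Submodule O U) (t : Finset U)
    (hfin : ∀ u ∈ M0, u ∈ Q ⊔ Submodule.span O (t : Set U)) :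
    ∃ c : ℕ, ∀ (n : ℕ) (m0 : U), m0 ∈ M0 → ϖ ^ n • m0 ∈ Q → ϖ ^ c • m0 ∈ Q := by
  classical
  -- the image of `span t` in `U ⧸ Q` is a noetherian module
  let q : U →ₗ[O] U ⧸ Q := Q.mkQ
  let H : Submodule O (U ⧸ Q) := Submodule.map q (Submodule.span O (t : Set U))
  have : Module.Finite O H := by
    apply Module.Finite.of_fg
    exact (Submodule.fg_span (Finset.finite_toSet t)).map q
  have : IsNoetherian O H := isNoetherian_of_isNoetherianRing_of_finite O H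
  obtain ⟨c, hc⟩ := exists_bound_of_noetherian (O := O) (H := H) ϖ
  refine ⟨c, fun n m0 hm0 hn => ?_⟩
  have hq : q m0 ∈ H := by
    obtain ⟨a, ha, b, hb, e⟩ := Submodule.mem_sup.mp (hfin m0 hm0)
    refine ⟨b, hb, ?_⟩
    rw [← e, map_add]
    have : q a = 0 := (Submodule.Quotient.mk_eq_zero Q).mpr ha
    rw [this, zero_add]
  have h0 : ϖ ^ n • (⟨q m0, hq⟩ : H) = 0 := by
    apply Subtype.ext
    simp only [Submodule.coe_smul, Submodule.coe_zero]
    rw [← map_smul]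
    exact (Submodule.Quotient.mk_eq_zero Q).mpr hn
  have h1 := hc n ⟨q m0, hq⟩ h0
  have h2 : ϖ ^ c • q m0 = 0 := by
    have := congrArg Subtype.val h1
    simpa only [Submodule.coe_smul, Submodule.coe_zero] using this
  rw [← map_smul] at h2
  exact (Submodule.Quotient.mk_eq_zero Q).mp h2

end Bound

/-! ### (G2-fin) the generalised `ChartFinite` -/

section Finite

variable {O U : Type*} [CommRing O] [AddCommGroup U] [Module O U]

/-- **(G2-fin)**: `J` (multiplication by `j`) an `O`-linear automorphism of `U`; `M₊` is contained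
in the `O`-span of the `J ^ n e`, `n : ℕ`, `e ∈ s` (`s` finite), which lie in `M₊`; for every
`e ∈ s` the elements `J ^ (-a) e`, `a ≥ c`, lie in `M₋`; every element of `M₀` is `J ^ (-a)` of an
element of `M₊`.  Then `M₀ ⊆ M₊ + M₋ + span (J ^ (-a) e : 0 < a < c, e ∈ s)`. -/
theorem exists_finset_sup (J : U ≃ₗ[O] U) (Mp Mm M0 : Submodule O U) (s : Finset U) (c : ℕ)
    (hgen : ∀ u ∈ Mp, u ∈ Submodule.span O {y : U | ∃ (n : ℕ) (e : U), e ∈ s ∧ y = (J ^ n) e})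
    (hsp : ∀ (n : ℕ) (e : U), e ∈ s → (J ^ n) e ∈ Mp)
    (hsm : ∀ (a : ℕ) (e : U), e ∈ s → c ≤ a → (J⁻¹ ^ a) e ∈ Mm)
    (h0 : ∀ u ∈ M0, ∃ a : ℕ, (J ^ a) u ∈ Mp) :
    ∃ t : Finset U, ∀ u ∈ M0, u ∈ (Mp ⊔ Mm) ⊔ Submodule.span O (t : Set U) := by
  classical
  let t : Finset U := (Finset.range c ×ˢ s).image fun ae => (J⁻¹ ^ ae.1) ae.2
  refine ⟨t, fun u hu => ?_⟩
  set T : Submodule O U := (Mp ⊔ Mm) ⊔ Submodule.span O (t : Set U) with hT
  -- every Laurent monomial lies in `T`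
  have hmonoN : ∀ (n : ℕ) (e : U), e ∈ s → (J ^ n) e ∈ T := fun n e he =>
    Submodule.mem_sup_left (Submodule.mem_sup_left (hsp n e he))
  have hmonoI : ∀ (a : ℕ) (e : U), e ∈ s → (J⁻¹ ^ a) e ∈ T := fun a e he => by
    rcases lt_or_ge a c with hac | hca
    · refine Submodule.mem_sup_right (Submodule.subset_span ?_)
      rw [Finset.mem_coe, Finset.mem_image]
      exact ⟨(a, e), Finset.mem_product.mpr ⟨Finset.mem_range.mpr hac, he⟩, rfl⟩
    · exact Submodule.mem_sup_left (Submodule.mem_sup_right (hsm a e he hca))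
  have hJinv : ∀ (a : ℕ) (v : U), (J⁻¹ ^ a) ((J ^ a) v) = v := fun a v => by
    have : (J⁻¹ ^ a) * (J ^ a) = 1 := by
      rw [inv_pow, inv_mul_cancel]
    exact congrArg (fun f : U ≃ₗ[O] U => f v) this
  have hmono : ∀ (a n : ℕ) (e : U), e ∈ s → (J⁻¹ ^ a) ((J ^ n) e) ∈ T := fun a n e he => by
    rcases le_total a n with han | hna
    · obtain ⟨d, rfl⟩ := Nat.exists_eq_add_of_le han
      have : (J⁻¹ ^ a) ((J ^ (a + d)) e) = (J ^ d) e := by
        have h1 : (J ^ (a + d)) e = (J ^ a) ((J ^ d) e) := by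
          rw [pow_add]; rfl
        rw [h1, hJinv]
      rw [this]; exact hmonoN d e he
    · obtain ⟨d, rfl⟩ := Nat.exists_eq_add_of_le hna
      have : (J⁻¹ ^ (n + d)) ((J ^ n) e) = (J⁻¹ ^ d) e := by
        have h1 : (J⁻¹ ^ (n + d)) ((J ^ n) e) = (J⁻¹ ^ d) ((J⁻¹ ^ n) ((J ^ n) e)) := by
          rw [add_comm, pow_add]; rfl
        rw [h1, hJinv]
      rw [this]; exact hmonoI d e he
  obtain ⟨a, ha⟩ := h0 u hu
  have hspan := hgen _ ha
  -- apply `J⁻¹ ^ a` to the span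
  have key : ∀ v ∈ Submodule.span O {y : U | ∃ (n : ℕ) (e : U), e ∈ s ∧ y = (J ^ n) e},
      (J⁻¹ ^ a) v ∈ T := by
    intro v hv
    induction hv using Submodule.span_induction with
    | mem y hy =>
      obtain ⟨n, e, he, rfl⟩ := hy
      exact hmono a n e he
    | zero => rw [map_zero]; exact T.zero_mem
    | add x y _ _ hx hy => rw [map_add]; exact T.add_mem hx hy
    | smul r x _ hx => rw [map_smul]; exact T.smul_mem r hx
  have := key _ hspan
  rwa [hJinv] at this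

/-- **(G2-fin) + (G2-bdd)**: the torsion bound `hbdd` of (G2) for a two-chart module over a
noetherian base. -/
theorem exists_torsion_bound_of_span [IsNoetherianRing O] (ϖ : O) (J : U ≃ₗ[O] U)
    (Mp Mm M0 : Submodule O U) (s : Finset U) (c : ℕ)
    (hgen : ∀ u ∈ Mp, u ∈ Submodule.span O {y : U | ∃ (n : ℕ) (e : U), e ∈ s ∧ y = (J ^ n) e})
    (hsp : ∀ (n : ℕ) (e : U), e ∈ s → (J ^ n) e ∈ Mp)
    (hsm : ∀ (a : ℕ) (e : U), e ∈ s → c ≤ a → (J⁻¹ ^ a) e ∈ Mm)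
    (h0 : ∀ u ∈ M0, ∃ a : ℕ, (J ^ a) u ∈ Mp) :
    ∃ c' : ℕ, ∀ (n : ℕ) (m0 : U), m0 ∈ M0 → ϖ ^ n • m0 ∈ Mp ⊔ Mm → ϖ ^ c' • m0 ∈ Mp ⊔ Mm := by
  obtain ⟨t, ht⟩ := exists_finset_sup J Mp Mm M0 s c hgen hsp hsm h0
  exact exists_torsion_bound ϖ (Mp ⊔ Mm) M0 t ht

end Finite

end Fermat.Agent.S33.G.Sections
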