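/-
S33 (`moonshots` row 61), STEP G, the **(G3) tail** (helper6): from the global section `g` of
`G/TwoCharts.exists_section_ord` to the level form of `NewRootAt`.

Situation (helper8's chain, board #2849): `k' = τ h / h ^ a` at a good level, `div k' = p ^ k • E_z`,
and STEP G produces `g ≠ 0` with `E_z ≤ div g` at EVERY place of `F / K`.  Then `k' / g ^ (p ^ k)`
has no zeros, hence (principal divisors have degree zero, in the form "a function without zeros is
algebraic over the constants": `S24.exists_zeroDivisor`) it is algebraic over `K`, hence a constant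
(`K` is algebraically closed in `F`), i.e. `k' = c' * g ^ (p ^ k)`; a posteriori `div g = E_z`.

No divisibility and no degree bookkeeping is needed: the only input is the pointwise inequality
`ord_v k' ≤ n * ord_v g`.

* generic (`F / K` of characteristic zero, finite over `K(x)`, `K` algebraically closed in `F`):
  `isAlgebraic_of_forall_ord_le_zero`, `exists_const_of_forall_ord_le_zero`,
  `exists_const_mul_pow`, `exists_const_mul_pow_of_le` (the `E`-form), `ord_eq_of_le`;
* at a level `K ⊆ Q̄`, `F = FF (Lvl K) N`: `algClosed_level`, `exists_const_mul_pow_level`,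
  `exists_const_mul_pow_level_of_le` (conclusion = the shape of `L/Descent.NewLevelAt`),
  `ord_eq_of_le_level`.
-/
import Mathlib
import Fermat.Agent.S24.PrincipalDegree
import Fermat.Agent.N4.FFAlgClosed
import Fermat.Agent.N4.ModPolySetting
import Fermat.Agent.N4F.C.Rationality

set_option autoImplicit false
set_option linter.unusedSectionVars false
set_option linter.style.haveILetI false

open AlgebraicCurve IntermediateField

namespace Fermat.Agent.S33.G.Tail

/-! ### Generic function fields of one variable -/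

section Generic

variable {K F : Type*} [Field K] [Field F] [Algebra K F]

/-- A function without zeros is algebraic over the constant field. -/
theorem isAlgebraic_of_forall_ord_le_zero [CharZero K] (x : F) [FiniteDimensional K⟮x⟯ F]
    (f : F) (h : ∀ v : Place K F, v.ord f ≤ 0) : IsAlgebraic K f := by
  by_contra htr
  haveI : FiniteDimensional K⟮f⟯ F :=
    Fermat.Agent.S24.finiteDimensional_adjoin_simple_of_transcendental x htr
  haveI : Algebra.IsAlgebraic K⟮f⟯ F := Algebra.IsAlgebraic.of_finite _ _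
  haveI : Algebra.IsSeparable K⟮f⟯ F := Algebra.IsAlgebraic.isSeparable_of_perfectField
  obtain ⟨Z, hZ1, hZ2⟩ := Fermat.Agent.S24.exists_zeroDivisor (K := K) (F := F) (h := f) htr
  have hZ0 : Z = 0 := by
    ext v
    rw [hZ1 v, max_eq_right (h v)]
    rfl
  rw [hZ0, map_zero] at hZ2
  have hpos : 0 < Module.finrank K⟮f⟯ F := Module.finrank_pos
  omega

/-- A nonzero function without zeros is a nonzero constant, if the constant field is algebraically
closed in the function field. -/
theorem exists_const_of_forall_ord_le_zero [CharZero K] (x : F) [FiniteDimensional K⟮x⟯ F]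
    (hcl : ∀ y : F, IsAlgebraic K y → y ∈ (algebraMap K F).range)
    {t : F} (ht : t ≠ 0) (h : ∀ v : Place K F, v.ord t ≤ 0) :
    ∃ c : K, c ≠ 0 ∧ t = algebraMap K F c := by
  obtain ⟨c, hc⟩ := hcl t (isAlgebraic_of_forall_ord_le_zero x t h)
  refine ⟨c, ?_, hc.symm⟩
  rintro rfl
  rw [map_zero] at hc
  exact ht hc.symm

/-- Orders of `k' / g ^ n`. -/
theorem ord_div_pow (v : Place K F) {k' g : F} (hk' : k' ≠ 0) (hg : g ≠ 0) (n : ℕ) :
    v.ord (k' / g ^ n) = v.ord k' - (n : ℤ) * v.ord g := by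
  rw [div_eq_mul_inv, v.ord_mul hk' (inv_ne_zero (pow_ne_zero n hg)), v.ord_inv,
    ← zpow_natCast, v.ord_zpow]
  ring

/-- **(G3) tail, generic form.**  If `ord_v k' ≤ n * ord_v g` at every place, then `k'` is a
nonzero constant times `g ^ n`. -/
theorem exists_const_mul_pow [CharZero K] (x : F) [FiniteDimensional K⟮x⟯ F]
    (hcl : ∀ y : F, IsAlgebraic K y → y ∈ (algebraMap K F).range)
    {k' g : F} (hk' : k' ≠ 0) (hg : g ≠ 0) (n : ℕ)
    (hle : ∀ v : Place K F, v.ord k' ≤ (n : ℤ) * v.ord g) :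
    ∃ c' : K, c' ≠ 0 ∧ k' = algebraMap K F c' * g ^ n := by
  have hgn : g ^ n ≠ 0 := pow_ne_zero n hg
  obtain ⟨c, hc0, hc⟩ := exists_const_of_forall_ord_le_zero x hcl
    (div_ne_zero hk' hgn) (fun v => by rw [ord_div_pow v hk' hg n]; linarith [hle v])
  exact ⟨c, hc0, by rw [← hc, div_mul_cancel₀ _ hgn]⟩

/-- **(G3) tail, `E`-form** (`div k' = n • E`, `E ≤ div g`). -/
theorem exists_const_mul_pow_of_le [CharZero K] (x : F) [FiniteDimensional K⟮x⟯ F]
    (hcl : ∀ y : F, IsAlgebraic K y → y ∈ (algebraMap K F).range)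
    {k' g : F} (hk' : k' ≠ 0) (hg : g ≠ 0) (n : ℕ) (E : Place K F → ℤ)
    (hE : ∀ v : Place K F, v.ord k' = (n : ℤ) * E v) (hle : ∀ v : Place K F, E v ≤ v.ord g) :
    ∃ c' : K, c' ≠ 0 ∧ k' = algebraMap K F c' * g ^ n :=
  exists_const_mul_pow x hcl hk' hg n fun v => by
    rw [hE v]
    exact mul_le_mul_of_nonneg_left (hle v) (Int.natCast_nonneg n)

/-- Constants have order zero. -/
theorem ord_algebraMap (v : Place K F) (c : K) : v.ord (algebraMap K F c) = 0 :=
  Fermat.Agent.S24.ord_eq_zero_of_isAlgebraic v (isAlgebraic_algebraMap c)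

/-- **(G3): `div g = E`.**  With `n ≠ 0`, `div k' = n • E` and `E ≤ div g` force `div g = E`. -/
theorem ord_eq_of_le [CharZero K] (x : F) [FiniteDimensional K⟮x⟯ F]
    (hcl : ∀ y : F, IsAlgebraic K y → y ∈ (algebraMap K F).range)
    {k' g : F} (hk' : k' ≠ 0) (hg : g ≠ 0) {n : ℕ} (hn : n ≠ 0) (E : Place K F → ℤ)
    (hE : ∀ v : Place K F, v.ord k' = (n : ℤ) * E v) (hle : ∀ v : Place K F, E v ≤ v.ord g)
    (v : Place K F) : v.ord g = E v := by
  obtain ⟨c', hc', h⟩ := exists_const_mul_pow_of_le x hcl hk' hg n E hE hle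
  have h1 : v.ord k' = (n : ℤ) * v.ord g := by
    rw [h, v.ord_mul ((map_ne_zero _).mpr hc') (pow_ne_zero n hg), ord_algebraMap v c', zero_add,
      ← zpow_natCast, v.ord_zpow]
  rw [hE v] at h1
  have hn' : (n : ℤ) ≠ 0 := Int.natCast_ne_zero.mpr hn
  exact (mul_left_cancel₀ hn' h1).symm

end Generic

/-! ### At a level `K ⊆ Q̄` -/

section Level

open Fermat.Agent.N4.Setting Fermat.Agent.N4F.C.Levels

local notation "Qb" => AlgebraicClosure ℚ

variable (N : ℕ) [NeZero N] (K : IntermediateField ℚ Qb)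

/-- The level `K` is algebraically closed in its modular function field. -/
theorem algClosed_level (y : FF (Lvl K) N) (hy : IsAlgebraic (Lvl K) y) :
    y ∈ (algebraMap (Lvl K) (FF (Lvl K) N)).range :=
  Fermat.Agent.N4.FFAlgClosed.algebraic_mem_range (Lvl K) N y hy

/-- **(G3) tail at a level**: `ord_v k' ≤ n * ord_v g` at every place of `FF (Lvl K) N` forces
`k' = c' * g ^ n` with a nonzero constant `c'` of the level. -/
theorem exists_const_mul_pow_level {k' g : FF (Lvl K) N} (hk' : k' ≠ 0) (hg : g ≠ 0) (n : ℕ)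
    (hle : ∀ v : Place (Lvl K) (FF (Lvl K) N), v.ord k' ≤ (n : ℤ) * v.ord g) :
    ∃ c' : Lvl K, c' ≠ 0 ∧ k' = algebraMap (Lvl K) (FF (Lvl K) N) c' * g ^ n := by
  haveI := Fermat.Agent.N4.ModPolySetting.finiteDimensional_FF (Lvl K) N
  exact exists_const_mul_pow (jF (Lvl K) N) (algClosed_level N K) hk' hg n hle

/-- **(G3) tail at a level, `E`-form**: the output `g` of `G/TwoCharts.exists_section_ord`
(`E ≤ div g` at every place) and `div k' = n • E` give `k' = c' * g ^ n` — the conclusion of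
`L/Descent.NewLevelAt` (with `c = 0`, `n = p ^ k`). -/
theorem exists_const_mul_pow_level_of_le {k' g : FF (Lvl K) N} (hk' : k' ≠ 0) (hg : g ≠ 0) (n : ℕ)
    (E : Place (Lvl K) (FF (Lvl K) N) → ℤ)
    (hE : ∀ v : Place (Lvl K) (FF (Lvl K) N), v.ord k' = (n : ℤ) * E v)
    (hle : ∀ v : Place (Lvl K) (FF (Lvl K) N), E v ≤ v.ord g) :
    ∃ c' : Lvl K, c' ≠ 0 ∧ k' = algebraMap (Lvl K) (FF (Lvl K) N) c' * g ^ n := by
  haveI := Fermat.Agent.N4.ModPolySetting.finiteDimensional_FF (Lvl K) N
  exact exists_const_mul_pow_of_le (jF (Lvl K) N) (algClosed_level N K) hk' hg n E hE hle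

/-- **(G3) at a level: `div g = E`.** -/
theorem ord_eq_of_le_level {k' g : FF (Lvl K) N} (hk' : k' ≠ 0) (hg : g ≠ 0) {n : ℕ} (hn : n ≠ 0)
    (E : Place (Lvl K) (FF (Lvl K) N) → ℤ)
    (hE : ∀ v : Place (Lvl K) (FF (Lvl K) N), v.ord k' = (n : ℤ) * E v)
    (hle : ∀ v : Place (Lvl K) (FF (Lvl K) N), E v ≤ v.ord g)
    (v : Place (Lvl K) (FF (Lvl K) N)) : v.ord g = E v := by
  haveI := Fermat.Agent.N4.ModPolySetting.finiteDimensional_FF (Lvl K) N
  exact ord_eq_of_le (jF (Lvl K) N) (algClosed_level N K) hk' hg hn E hE hle v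

end Level

end Fermat.Agent.S33.G.Tail
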