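/-
S33 (`moonshots` row 61), STEP G, main theorem (helper23): **formal functions for sections on the
two-chart model** — from local approximants at every closed point of the special fibre of both
charts to a GLOBAL section of `𝒪(-E)`.

Setting (abstract chart framework of `P3G/Krull`, `P3G/KrullChart`, `P3G/UCrit`): `O` a discrete
valuation ring with uniformiser `ϖ`, `K = Frac O`, `F` a function field over `K` (places
`Place K F`), two charts `Rp Rm` (noetherian integrally closed domains with fraction field `F`,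
`O`-algebras), `V i` the finitely many vertical valuation rings (common to both charts),
`j ∈ Rp`, `j⁻¹ ∈ Rm` the gluing coordinate, `E : Place K F → ℤ` a divisor.

* `LocApprox V hV E ϖ 𝔫 ρ N η` : `η` is a local generator of `𝒪(-E)` at the prime `𝔫` of the
  chart which approximates `ρ` modulo `ϖ ^ N` on the vertical components through `𝔫`;
* `exists_smul_eq_add` : (G1)-input at one prime: `t • ρ = m + ϖ ^ N w`, `t ∉ 𝔫`, `m` a section;
* `exists_chart_approx` : (G1) on one chart: `∃ x ∈ secMod, x ≡ ρ` modulo `ϖ ^ N W`;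
* `exists_section` : **(G1) + (G2) + (G3-a)**: if for every `N` there is `ρ ∈ W`, a unit at some
  vertical component, with local approximants at every closed point of both charts, then there
  is `g ≠ 0` in `F`, integral at every `V i`, with `E v ≤ v.ord g` at EVERY place `v` of `F / K`.
-/
import Mathlib
import Fermat.Agent.S33.G.Sections
import Fermat.Agent.S33.G.SectionModule

set_option autoImplicit false
set_option linter.unusedSectionVars false
set_option linter.style.haveILetI false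

namespace Fermat.Agent.S33.G.TwoCharts

open Fermat.Agent.N4.Cover.Globalize Fermat.Agent.P3G.Krull Fermat.Agent.P3G.KrullChart
open AlgebraicCurve
open Fermat.Agent.N4F.C.LocalMult
open Fermat.Agent.S33.G.Sections Fermat.Agent.S33.G.SectionModule

/-! ### Discrete valuation rings are archimedean with respect to their nonunits -/

section Arch

variable {F : Type*} [Field F]

/-- In a discrete valuation ring `V` of `F`, a power of a nonunit `c` pushes any `x ∈ F` into
`V`. -/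
theorem exists_pow_mul_mem_of_dvr (V : ValuationSubring F) [IsDiscreteValuationRing V]
    {c : F} (hc : c ∈ V.nonunits) (x : F) : ∃ m : ℕ, c ^ m * x ∈ V := by
  by_cases hx : x ∈ V
  · exact ⟨0, by rwa [pow_zero, one_mul]⟩
  have hx0 : x ≠ 0 := fun h => hx (h ▸ V.zero_mem)
  have hxi : x⁻¹ ∈ V := (V.mem_or_inv_mem x).resolve_left hx
  have hcV : c ∈ V := ValuationSubring.nonunits_le hc
  obtain ⟨π, hπ⟩ := IsDiscreteValuationRing.exists_irreducible V
  have hy0 : (⟨x⁻¹, hxi⟩ : V) ≠ 0 := fun h => inv_ne_zero hx0 (congrArg Subtype.val h)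
  obtain ⟨k, u, hu⟩ := IsDiscreteValuationRing.eq_unit_mul_pow_irreducible hy0 hπ
  -- `c = π r`
  have hcm : (⟨c, hcV⟩ : V) ∈ IsLocalRing.maximalIdeal V := by
    rw [IsLocalRing.mem_maximalIdeal, mem_nonunits_iff]
    intro hunit
    rw [ValuationSubring.mem_nonunits_iff_exists_mem_maximalIdeal] at hc
    obtain ⟨_, hmax⟩ := hc
    exact (IsLocalRing.mem_maximalIdeal _).1 hmax hunit
  rw [hπ.maximalIdeal_eq, Ideal.mem_span_singleton'] at hcm
  obtain ⟨r, hr⟩ := hcm
  refine ⟨k, ?_⟩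
  -- `c ^ k * x = r ^ k * u⁻¹`
  have h1 : c ^ k = ((r ^ k * π ^ k : V) : F) := by
    have : (⟨c, hcV⟩ : V) ^ k = r ^ k * π ^ k := by rw [← hr, mul_pow]
    have := congrArg (fun z : V => (z : F)) this
    simpa using this
  have h2 : x⁻¹ = ((u : V) : F) * ((π : V) : F) ^ k := by
    have := congrArg (fun z : V => (z : F)) hu
    simpa using this
  have h3 : x = (((u⁻¹ : Vˣ) : V) : F) * (((π : V) : F) ^ k)⁻¹ := by
    have hu1 : (((u⁻¹ : Vˣ) : V) : F) * ((u : V) : F) = 1 := by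
      rw [← MulMemClass.coe_mul, Units.inv_mul]; rfl
    have hu0 : ((u : V) : F) ≠ 0 := fun h => by rw [h, mul_zero] at hu1; exact zero_ne_one hu1
    have hπ0 : ((π : V) : F) ^ k ≠ 0 := by
      intro h
      rw [h, mul_zero] at h2
      exact inv_ne_zero hx0 h2
    have : x = (x⁻¹)⁻¹ := (inv_inv x).symm
    rw [this, h2, mul_inv]
    congr 1
    exact inv_eq_of_mul_eq_one_left hu1
  have hπ0 : ((π : V) : F) ^ k ≠ 0 := by
    intro h
    rw [h, mul_zero] at h2
    exact inv_ne_zero hx0 h2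
  have h4 : c ^ k * x = ((r ^ k * ((u⁻¹ : Vˣ) : V) : V) : F) := by
    rw [h1, h3]
    push_cast
    field_simp
  rw [h4]
  exact (r ^ k * ((u⁻¹ : Vˣ) : V) : V).2

end Arch

/-! ### One chart: the (G1)-input and the local–global principle -/

section OneChart

variable {O K F R : Type*}
  [CommRing O] [IsDomain O] [IsDiscreteValuationRing O]
  [Field K] [Algebra O K] [IsFractionRing O K]
  [Field F] [Algebra K F] [Algebra O F] [IsScalarTower O K F]
  [CommRing R] [IsDomain R] [IsNoetherianRing R]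
  [Algebra R F] [IsFractionRing R F] [Algebra O R] [IsScalarTower O R F]

variable {ι : Type*} [Finite ι] (V : ι → ValuationSubring F)
  (hV : ∀ i (r : R), algebraMap R F r ∈ V i) (E : Place K F → ℤ)

/-- The archimedean hypothesis `harch` of `SectionModule.exists_smul_mem_secMod` holds when the
vertical valuation rings are discrete valuation rings. -/
theorem harch_of_dvr [∀ i, IsDiscreteValuationRing (V i)] :
    ∀ i (x : F) (c : R), c ∈ vCentre (V i) (hV i) → ∃ m : ℕ, (c ^ m) • x ∈ V i := by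
  intro i x c hc
  obtain ⟨m, hm⟩ := exists_pow_mul_mem_of_dvr (V i) ((mem_vCentre_iff (V i) (hV i)).1 hc) x
  exact ⟨m, by rwa [Algebra.smul_def, map_pow]⟩

include hV in
/-- Constants of `O` are integral at the vertical valuation rings. -/
theorem algebraMap_O_mem (i : ι) (c : O) : algebraMap O F c ∈ V i := by
  rw [IsScalarTower.algebraMap_apply O R F]
  exact hV i _

/-- The local condition at a prime `𝔫` of the chart `R`: `η` is integral at the vertical components
through `𝔫`, approximates `ρ` modulo `ϖ ^ N` there, and has order `≥ E v` at every place `v`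
centred at (a prime contained in) `𝔫`. -/
structure LocApprox (ϖ : O) (𝔫 : Ideal R) (ρ : F) (N : ℕ) (η : F) : Prop where
  vert : ∀ i, vCentre (V i) (hV i) ≤ 𝔫 → η ∈ V i
  approx : ∀ i, vCentre (V i) (hV i) ≤ 𝔫 → ∃ d ∈ V i, ρ - η = algebraMap O F (ϖ ^ N) * d
  hor : ∀ (v : Place K F) (hv : Contains R v), centreIdeal hv ≤ 𝔫 →
    v.adicValuation η ≤ WithZero.exp (-(E v))

/-- An element of `F` violates the order conditions of `E` at finitely many places only. -/
theorem finite_violations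
    (hdiv : ∀ x : F, x ≠ 0 → {v : Place K F | v.ord x ≠ 0}.Finite)
    (hE : {v : Place K F | E v ≠ 0}.Finite) (η : F) :
    {v : Place K F | Contains R v ∧ ¬ v.adicValuation η ≤ WithZero.exp (-(E v))}.Finite := by
  rcases eq_or_ne η 0 with rfl | hη
  · refine Set.Finite.subset Set.finite_empty ?_
    rintro v ⟨-, hv⟩
    exact absurd (by rw [map_zero]; exact zero_le) hv
  · refine Set.Finite.subset ((hdiv η hη).union hE) ?_
    rintro v ⟨-, hv⟩
    rw [adicValuation_le_exp_neg_iff v hη] at hv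
    by_contra hcon
    rw [Set.mem_union, not_or] at hcon
    obtain ⟨h1, h2⟩ := hcon
    have h1' : v.ord η = 0 := by
      by_contra h; exact h1 h
    have h2' : E v = 0 := by
      by_contra h; exact h2 h
    rw [h1', h2'] at hv
    exact hv le_rfl

/-- The `R`-submodule `ϖ ^ N W` of `F` (`W = ⋂ V i`). -/
def powMod (ϖ : O) (N : ℕ) : Submodule R F where
  carrier := {x | ∃ w : F, (∀ i, w ∈ V i) ∧ x = algebraMap O F (ϖ ^ N) * w}
  add_mem' := by
    rintro _ _ ⟨w, hw, rfl⟩ ⟨w', hw', rfl⟩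
    exact ⟨w + w', fun i => (V i).add_mem _ _ (hw i) (hw' i), by ring⟩
  zero_mem' := ⟨0, fun i => (V i).zero_mem, by rw [mul_zero]⟩
  smul_mem' := by
    rintro c _ ⟨w, hw, rfl⟩
    refine ⟨c • w, fun i => ?_, ?_⟩
    · rw [Algebra.smul_def]; exact (V i).mul_mem _ _ (hV i c) (hw i)
    · rw [Algebra.smul_def, Algebra.smul_def]; ring

variable {V hV E}

/-- **(G1)-input at one prime.** -/
theorem exists_smul_eq_add {ϖ : O} {𝔫 : Ideal R} [h𝔫 : 𝔫.IsPrime] {ρ : F} {N : ℕ} {η : F}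
    (h : LocApprox V hV E ϖ 𝔫 ρ N η) (hϖ : ϖ ≠ 0)
    (harch : ∀ i (x : F) (c : R), c ∈ vCentre (V i) (hV i) → ∃ m : ℕ, (c ^ m) • x ∈ V i)
    (hdiv : ∀ x : F, x ≠ 0 → {v : Place K F | v.ord x ≠ 0}.Finite)
    (hE : {v : Place K F | E v ≠ 0}.Finite) :
    ∃ t : R, t ∉ 𝔫 ∧ ∃ m ∈ secMod V hV E, ∃ w : F, (∀ i, w ∈ V i) ∧
      t • ρ = m + algebraMap O F (ϖ ^ N) * w := by
  classical
  obtain ⟨t₁, ht₁, hm₁⟩ := exists_smul_mem_secMod V hV E 𝔫 η harch h.vert h.hor
    (finite_violations E hdiv hE η)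
  -- the quotient `d = (ρ - η) / ϖ ^ N`
  have hϖ0 : algebraMap O F (ϖ ^ N) ≠ 0 := by
    have hinj : Function.Injective (algebraMap O F) := by
      rw [IsScalarTower.algebraMap_eq O K F]
      exact (algebraMap K F).injective.comp (IsFractionRing.injective O K)
    intro h0
    exact pow_ne_zero N hϖ (hinj (by rw [h0, map_zero]))
  set d : F := (ρ - η) * (algebraMap O F (ϖ ^ N))⁻¹ with hd
  have hdρ : ρ - η = algebraMap O F (ϖ ^ N) * d := by
    rw [hd, mul_comm (ρ - η), ← mul_assoc, mul_inv_cancel₀ hϖ0, one_mul]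
  have hdV : ∀ i, vCentre (V i) (hV i) ≤ 𝔫 → d ∈ V i := by
    intro i hi
    obtain ⟨d', hd', e⟩ := h.approx i hi
    have : d = d' := by
      rw [hd, e, mul_comm (algebraMap O F (ϖ ^ N)), mul_assoc, mul_inv_cancel₀ hϖ0, mul_one]
    rw [this]; exact hd'
  -- clear the vertical components not through `𝔫`
  have hC : ∀ (i : ι) (r : R) (x : F), x ∈ V i → r • x ∈ V i := fun i r x hx => by
    rw [Algebra.smul_def]; exact (V i).mul_mem _ _ (hV i r) hx
  have hex : ∀ i : ι, ∃ t : R, t ∉ 𝔫 ∧ t • d ∈ V i := by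
    intro i
    by_cases hi : vCentre (V i) (hV i) ≤ 𝔫
    · exact ⟨1, fun h1 => h𝔫.ne_top ((Ideal.eq_top_iff_one _).2 h1), by
        rw [one_smul]; exact hdV i hi⟩
    · obtain ⟨c, hc, hcn⟩ := Set.not_subset.1 hi
      obtain ⟨m, hm⟩ := harch i d c hc
      exact ⟨c ^ m, fun h1 => hcn (h𝔫.mem_of_pow_mem m h1), hm⟩
  obtain ⟨t₂, ht₂, hd₂⟩ := exists_common (fun (i : ι) (x : F) => x ∈ V i) hC 𝔫 d hex
  refine ⟨t₂ * t₁, fun hmem => ?_, t₂ • (t₁ • η), (secMod V hV E).smul_mem t₂ hm₁,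
    t₁ • (t₂ • d), fun i => hC i t₁ _ (hd₂ i), ?_⟩
  · rcases h𝔫.mem_or_mem hmem with h1 | h1
    · exact ht₂ h1
    · exact ht₁ h1
  · have hρ : ρ = η + algebraMap O F (ϖ ^ N) * d := by rw [← hdρ]; ring
    rw [mul_smul]
    conv_lhs => rw [hρ]
    simp only [Algebra.smul_def, mul_add]
    ring

/-- **(G1) on one chart**: local approximants at every closed point of the special fibre glue
to a section `x` of `𝒪(-E)` on the chart with `x ≡ ρ` modulo `ϖ ^ N W`. -/
theorem exists_chart_approx {ϖ : O} (hϖ : Irreducible ϖ)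
    (harch : ∀ i (x : F) (c : R), c ∈ vCentre (V i) (hV i) → ∃ m : ℕ, (c ^ m) • x ∈ V i)
    (hdiv : ∀ x : F, x ≠ 0 → {v : Place K F | v.ord x ≠ 0}.Finite)
    (hE : {v : Place K F | E v ≠ 0}.Finite) {ρ : F} (hρ : ∀ i, ρ ∈ V i) (N : ℕ)
    (hloc : ∀ 𝔫 : Ideal R, 𝔫.IsMaximal → algebraMap O R ϖ ∈ 𝔫 →
      ∃ η : F, LocApprox V hV E ϖ 𝔫 ρ N η) :
    ∃ x ∈ secMod V hV E, ∃ w : F, (∀ i, w ∈ V i) ∧ x - ρ = algebraMap O F (ϖ ^ N) * w := by
  have key : ∃ x ∈ secMod V hV E, ∃ q ∈ powMod (R := R) V hV ϖ N, ρ = x + q := by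
    refine exists_add_of_forall_maximal (secMod V hV E) (powMod V hV ϖ N) ρ fun 𝔫 h𝔫 => ?_
    haveI := h𝔫.isPrime
    by_cases hmem : algebraMap O R ϖ ∈ 𝔫
    · obtain ⟨η, hη⟩ := hloc 𝔫 h𝔫 hmem
      obtain ⟨t, ht, m, hm, w, hw, e⟩ := exists_smul_eq_add hη hϖ.ne_zero harch hdiv hE
      exact ⟨t, ht, m, hm, _, ⟨w, hw, rfl⟩, e⟩
    · refine ⟨algebraMap O R (ϖ ^ N), ?_, 0, zero_mem _, _, ⟨ρ, hρ, rfl⟩, ?_⟩
      · rw [map_pow]; exact fun h => hmem (h𝔫.isPrime.mem_of_pow_mem N h)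
      · rw [zero_add, Algebra.smul_def, ← IsScalarTower.algebraMap_apply]
  obtain ⟨x, hx, q, ⟨w, hw, rfl⟩, e⟩ := key
  exact ⟨x, hx, -w, fun i => neg_mem (hw i), by rw [e]; ring⟩

end OneChart

/-! ### Multiplication by the gluing coordinate -/

section MulJ

variable {O F : Type*} [CommRing O] [Field F] [Algebra O F]

/-- Multiplication by `j ≠ 0` as an `O`-linear automorphism of `F`. -/
def mulJ (O : Type*) [CommRing O] [Algebra O F] (j : F) (hj : j ≠ 0) : F ≃ₗ[O] F where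
  toFun x := j * x
  invFun x := j⁻¹ * x
  map_add' := mul_add j
  map_smul' c x := by
    simp only [RingHom.id_apply, Algebra.smul_def]; ring
  left_inv x := by
    show j⁻¹ * (j * x) = x
    rw [← mul_assoc, inv_mul_cancel₀ hj, one_mul]
  right_inv x := by
    show j * (j⁻¹ * x) = x
    rw [← mul_assoc, mul_inv_cancel₀ hj, one_mul]

theorem mulJ_pow_apply (j : F) (hj : j ≠ 0) (n : ℕ) (x : F) :
    ((mulJ O j hj) ^ n) x = j ^ n * x := by
  induction n generalizing x with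
  | zero => simp
  | succ n ih =>
    rw [pow_succ, LinearEquiv.mul_apply, ih]
    show j ^ n * (j * x) = j ^ (n + 1) * x
    ring

theorem mulJ_inv_pow_apply (j : F) (hj : j ≠ 0) (n : ℕ) (x : F) :
    ((mulJ O j hj)⁻¹ ^ n) x = j⁻¹ ^ n * x := by
  induction n generalizing x with
  | zero => simp
  | succ n ih =>
    rw [pow_succ, LinearEquiv.mul_apply, ih]
    show j⁻¹ ^ n * (j⁻¹ * x) = j⁻¹ ^ (n + 1) * x
    ring

end MulJ

/-! ### Two charts: the main theorem -/

section Two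

variable {O K F : Type*}
  [CommRing O] [IsDomain O] [IsDiscreteValuationRing O]
  [Field K] [Algebra O K] [IsFractionRing O K]
  [Field F] [Algebra K F] [Algebra O F] [IsScalarTower O K F]

variable {ι : Type*} (V : ι → ValuationSubring F) (E : Place K F → ℤ)

/-- Elements integral at all vertical valuation rings, as an `O`-submodule of `F`. -/
def vertO (hO : ∀ i (c : O), algebraMap O F c ∈ V i) : Submodule O F where
  carrier := {x | ∀ i, x ∈ V i}
  add_mem' := fun ha hb i => (V i).add_mem _ _ (ha i) (hb i)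
  zero_mem' := fun i => (V i).zero_mem
  smul_mem' := fun c x hx i => by
    rw [Algebra.smul_def]; exact (V i).mul_mem _ _ (hO i c) (hx i)

/-- Constants of `O` have valuation `≤ 1` at every place of `F / K`. -/
theorem adicValuation_algebraMap_O_le_one (v : Place K F) (c : O) :
    v.adicValuation (algebraMap O F c) ≤ 1 := by
  rw [IsScalarTower.algebraMap_apply O K F]
  exact adicValuation_le_one_of_mem v (v.algebraMap_mem' _)

/-- The sections of `𝒪(-E)` on the overlap of two charts, as an `O`-submodule of `F`: conditions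
at the vertical valuation rings and at the places satisfying `P` (`P v` = "`v` contains both
charts"). -/
def overlapO (P : Place K F → Prop) (hO : ∀ i (c : O), algebraMap O F c ∈ V i) :
    Submodule O F where
  carrier := {g | (∀ i, g ∈ V i) ∧
    ∀ v : Place K F, P v → v.adicValuation g ≤ WithZero.exp (-(E v))}
  add_mem' := by
    rintro a b ⟨ha1, ha2⟩ ⟨hb1, hb2⟩
    refine ⟨fun i => (V i).add_mem _ _ (ha1 i) (hb1 i), fun v hv => ?_⟩
    exact le_trans (Valuation.map_add _ _ _) (max_le (ha2 v hv) (hb2 v hv))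
  zero_mem' := ⟨fun i => (V i).zero_mem, fun v _ => by rw [map_zero]; exact zero_le⟩
  smul_mem' := by
    rintro c g ⟨hg1, hg2⟩
    refine ⟨fun i => ?_, fun v hv => ?_⟩
    · rw [Algebra.smul_def]; exact (V i).mul_mem _ _ (hO i c) (hg1 i)
    · rw [Algebra.smul_def, map_mul]
      calc v.adicValuation (algebraMap O F c) * v.adicValuation g
          ≤ 1 * WithZero.exp (-(E v)) :=
            mul_le_mul' (adicValuation_algebraMap_O_le_one v c) (hg2 v hv)
        _ = WithZero.exp (-(E v)) := one_mul _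

/-- Large powers of a nonunit `t` of the valuation ring of `v` push the valuation of `x` below any
bound. -/
theorem exists_forall_pow_mul_le (v : Place K F) {t : F} (ht : t ∈ v.toValuationSubring.nonunits)
    (x : F) (n : ℤ) :
    ∃ m₀ : ℕ, ∀ m : ℕ, m₀ ≤ m → v.adicValuation (t ^ m * x) ≤ WithZero.exp (-n) := by
  rcases eq_or_ne x 0 with rfl | hx
  · exact ⟨0, fun m _ => by rw [mul_zero, map_zero]; exact zero_le⟩
  have ht1 : v.adicValuation t ≤ WithZero.exp (-1 : ℤ) :=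
    adicValuation_le_exp_neg_one_of_mem_nonunits v ht
  refine ⟨(n - v.ord x).toNat, fun m hm => ?_⟩
  rw [map_mul, map_pow]
  have h1 : v.adicValuation t ^ m ≤ WithZero.exp (-1 : ℤ) ^ m := pow_le_pow_left' ht1 _
  have h2 : v.adicValuation x = WithZero.exp (-(v.ord x)) := by
    rw [Place.ord, neg_neg, WithZero.exp_log (v.adicValuation_ne_zero hx)]
  calc v.adicValuation t ^ m * v.adicValuation x
      ≤ WithZero.exp (-1 : ℤ) ^ m * WithZero.exp (-(v.ord x)) := by
        rw [h2]; exact mul_le_mul' h1 le_rfl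
    _ = WithZero.exp ((m : ℤ) * (-1) + -(v.ord x)) := by
        rw [WithZero.exp_add, ← WithZero.exp_nsmul, nsmul_eq_mul]
    _ ≤ WithZero.exp (-n) := by
        rw [WithZero.exp_le_exp]
        have := Int.self_le_toNat (n - v.ord x)
        omega

/-- **STEP G, main theorem.**  Two charts `Rp ∋ j`, `Rm ∋ j⁻¹` of a normal model over the discrete
valuation ring `O`, with common vertical valuation rings `V i`; `E` a finitely supported divisor.
Assume that for every `N` there is `ρ ∈ W = ⋂ V i` with local approximants (`LocApprox`) modulo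
`ϖ ^ N` at every closed point of the special fibre of both charts.  Then there is a GLOBAL section
`g` of `𝒪(-E)`: `g ∈ W` and `|g|_v ≤ exp (-E v)` at every place `v` of `F / K`; moreover `g` is a
unit at the components `i ∈ U₀` at which all the `ρ` are units. -/
theorem exists_section
    {Rp Rm : Type*} [CommRing Rp] [IsDomain Rp] [IsNoetherianRing Rp] [IsIntegrallyClosed Rp]
    [Algebra Rp F] [IsFractionRing Rp F] [Algebra O Rp] [IsScalarTower O Rp F]
    [CommRing Rm] [IsDomain Rm] [IsNoetherianRing Rm]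
    [Algebra Rm F] [IsFractionRing Rm F] [Algebra O Rm] [IsScalarTower O Rm F]
    [Finite ι] {ϖ : O} (hϖ : Irreducible ϖ)
    (hVp : ∀ i (r : Rp), algebraMap Rp F r ∈ V i) (hVm : ∀ i (r : Rm), algebraMap Rm F r ∈ V i)
    (hϖV : ∀ i, algebraMap O F ϖ ∈ (V i).nonunits)
    (hsatp : ∀ r : Rp, (∀ i, algebraMap Rp F r ∈ (V i).nonunits) → algebraMap O Rp ϖ ∣ r)
    (harchp : ∀ i (x : F) (c : Rp), c ∈ vCentre (V i) (hVp i) → ∃ m : ℕ, (c ^ m) • x ∈ V i)
    (harchm : ∀ i (x : F) (c : Rm), c ∈ vCentre (V i) (hVm i) → ∃ m : ℕ, (c ^ m) • x ∈ V i)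
    (hE : {v : Place K F | E v ≠ 0}.Finite)
    (hdiv : ∀ x : F, x ≠ 0 → {v : Place K F | v.ord x ≠ 0}.Finite)
    {j : F} (hj0 : j ≠ 0) (hjp : ∃ r : Rp, algebraMap Rp F r = j)
    (hjm : ∃ r : Rm, algebraMap Rm F r = j⁻¹)
    (hpole_p : ∀ v : Place K F, j ∈ v.toValuationSubring → Contains Rp v)
    (hpole_m : ∀ v : Place K F, j⁻¹ ∈ v.toValuationSubring → Contains Rm v)
    (s₀ : Finset F) (hs₀ : ∀ e ∈ s₀, ∃ r : Rp, algebraMap Rp F r = e)
    (hspan : ∀ r : Rp, algebraMap Rp F r ∈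
      Submodule.span O {y : F | ∃ (n : ℕ) (e : F), e ∈ s₀ ∧ y = j ^ n * e})
    (U₀ : Set ι)
    (hloc : ∀ N : ℕ, ∃ ρ : F, (∀ i, ρ ∈ V i) ∧ (∀ i ∈ U₀, ρ ∉ (V i).nonunits) ∧
      (∀ 𝔫 : Ideal Rp, 𝔫.IsMaximal → algebraMap O Rp ϖ ∈ 𝔫 →
        ∃ η : F, LocApprox V hVp E ϖ 𝔫 ρ N η) ∧
      (∀ 𝔫 : Ideal Rm, 𝔫.IsMaximal → algebraMap O Rm ϖ ∈ 𝔫 →
        ∃ η : F, LocApprox V hVm E ϖ 𝔫 ρ N η)) :
    ∃ g : F, (∀ i, g ∈ V i) ∧ (∀ i ∈ U₀, g ∉ (V i).nonunits) ∧
      ∀ v : Place K F, v.adicValuation g ≤ WithZero.exp (-(E v)) := by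
  classical
  have hO : ∀ i (c : O), algebraMap O F c ∈ V i := fun i c => algebraMap_O_mem V hVp i c
  obtain ⟨jp, hjp⟩ := hjp
  obtain ⟨jm, hjm⟩ := hjm
  have hjV : ∀ i, j ∈ V i := fun i => hjp ▸ hVp i jp
  have hjiV : ∀ i, j⁻¹ ∈ V i := fun i => hjm ▸ hVm i jm
  -- every place contains one of the charts; the exceptional places are poles of `j^{±1}`
  have hcover : ∀ v : Place K F, Contains Rp v ∨ Contains Rm v := by
    intro v
    rcases v.toValuationSubring.mem_or_inv_mem j with h | h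
    · exact Or.inl (hpole_p v h)
    · exact Or.inr (hpole_m v h)
  have hjnon_p : ∀ v : Place K F, ¬ Contains Rp v → j⁻¹ ∈ v.toValuationSubring.nonunits := by
    intro v hv
    have h1 : j ∉ v.toValuationSubring := fun h => hv (hpole_p v h)
    rw [ValuationSubring.mem_nonunits_iff, map_inv₀]
    rw [← ValuationSubring.valuation_le_one_iff, not_le] at h1
    exact inv_lt_one_of_one_lt₀ h1
  have hjnon_m : ∀ v : Place K F, ¬ Contains Rm v → j ∈ v.toValuationSubring.nonunits := by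
    intro v hv
    have h1 : j⁻¹ ∉ v.toValuationSubring := fun h => hv (hpole_m v h)
    rw [ValuationSubring.mem_nonunits_iff]
    rw [← ValuationSubring.valuation_le_one_iff, not_le, map_inv₀] at h1
    have h2 := inv_lt_one_of_one_lt₀ h1
    rwa [inv_inv] at h2
  have hfinp : {v : Place K F | ¬ Contains Rp v}.Finite := by
    refine (hdiv j hj0).subset fun v hv => ?_
    have h1 := hjnon_p v hv
    rw [mem_nonunits_iff_ord_pos v (inv_ne_zero hj0), Place.ord_inv] at h1
    show v.ord j ≠ 0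
    omega
  have hfinm : {v : Place K F | ¬ Contains Rm v}.Finite := by
    refine (hdiv j hj0).subset fun v hv => ?_
    have h1 := hjnon_m v hv
    rw [mem_nonunits_iff_ord_pos v hj0] at h1
    show v.ord j ≠ 0
    omega
  -- the modules
  set SMp := secMod V hVp E with hSMp
  set SMm := secMod V hVm E with hSMm
  set Mp : Submodule O F := SMp.restrictScalars O with hMp
  set Mm : Submodule O F := SMm.restrictScalars O with hMm
  set M0 : Submodule O F :=
    overlapO V E (fun v => Contains Rp v ∧ Contains Rm v) hO with hM0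
  set Wm : Submodule O F := vertO V hO with hWm
  set J := mulJ O j hj0 with hJ
  have hp0 : Mp ≤ M0 := fun g hg => ⟨hg.1, fun v hv => hg.2 v hv.1⟩
  have hm0 : Mm ≤ M0 := fun g hg => ⟨hg.1, fun v hv => hg.2 v hv.2⟩
  have hpW : Mp ≤ Wm := fun g hg => hg.1
  -- generators of the sections on the first chart
  have hfinneg : {v : Place K F | Contains Rp v ∧ E v < 0}.Finite :=
    hE.subset fun v hv => ne_of_lt hv.2
  have hϖVp : ∀ i, algebraMap Rp F (algebraMap O Rp ϖ) ∈ (V i).nonunits := by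
    intro i
    rw [← IsScalarTower.algebraMap_apply]
    exact hϖV i
  obtain ⟨G, hG⟩ := secMod_fg hϖ V hVp hϖVp hsatp E hfinneg
  have hGmem : ∀ m ∈ G, m ∈ SMp := fun m hm => by
    rw [hSMp, ← hG]; exact Submodule.subset_span hm
  let s : Finset F := (s₀ ×ˢ G).image fun em => em.1 * em.2
  have hs : ∀ e ∈ s, ∃ e₀ ∈ s₀, ∃ m ∈ G, e = e₀ * m := by
    intro e he
    obtain ⟨⟨e₀, m⟩, hem, rfl⟩ := Finset.mem_image.1 he
    obtain ⟨h1, h2⟩ := Finset.mem_product.1 hem
    exact ⟨e₀, h1, m, h2, rfl⟩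
  have hsMp : ∀ (n : ℕ) (e : F), e ∈ s → (J ^ n) e ∈ Mp := by
    intro n e he
    obtain ⟨e₀, he₀, m, hm, rfl⟩ := hs e he
    obtain ⟨r₀, hr₀⟩ := hs₀ e₀ he₀
    rw [hJ, mulJ_pow_apply]
    have : j ^ n * (e₀ * m) = (jp ^ n * r₀) • m := by
      rw [Algebra.smul_def, map_mul, map_pow, hjp, hr₀]; ring
    rw [this]
    exact SMp.smul_mem _ (hGmem m hm)
  have hgen : ∀ u ∈ Mp, u ∈ Submodule.span O
      {y : F | ∃ (n : ℕ) (e : F), e ∈ s ∧ y = (J ^ n) e} := by
    set T := Submodule.span O {y : F | ∃ (n : ℕ) (e : F), e ∈ s ∧ y = (J ^ n) e} with hT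
    have hT1 : ∀ (r : Rp) (m : F), m ∈ G → algebraMap Rp F r * m ∈ T := by
      intro r m hm
      have key : ∀ x ∈ Submodule.span O {y : F | ∃ (n : ℕ) (e : F), e ∈ s₀ ∧ y = j ^ n * e},
          x * m ∈ T := by
        intro x hx
        induction hx using Submodule.span_induction with
        | mem y hy =>
          obtain ⟨n, e, he, rfl⟩ := hy
          refine Submodule.subset_span ⟨n, e * m, ?_, ?_⟩
          · exact Finset.mem_image.2 ⟨(e, m), Finset.mem_product.2 ⟨he, hm⟩, rfl⟩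
          · rw [hJ, mulJ_pow_apply]; ring
        | zero => rw [zero_mul]; exact T.zero_mem
        | add x y _ _ hx hy => rw [add_mul]; exact T.add_mem hx hy
        | smul c x _ hx => rw [smul_mul_assoc]; exact T.smul_mem c hx
      exact key _ (hspan r)
    intro u hu
    have hu' : u ∈ Submodule.span Rp (G : Set F) := by rw [hG]; exact hu
    obtain ⟨f, -, rfl⟩ := Submodule.mem_span_finset.1 hu'
    refine T.sum_mem fun m hm => ?_
    rw [Algebra.smul_def]
    exact hT1 (f m) m hm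
  -- the exponent `c` for the second chart
  have hsm : ∃ c : ℕ, ∀ (a : ℕ) (e : F), e ∈ s → c ≤ a → (J⁻¹ ^ a) e ∈ Mm := by
    haveI : Finite {v : Place K F | ¬ Contains Rp v} := hfinp
    have hex : ∀ ev : s × {v : Place K F | ¬ Contains Rp v}, ∃ m₀ : ℕ, ∀ m : ℕ, m₀ ≤ m →
        (ev.2 : Place K F).adicValuation (j⁻¹ ^ m * (ev.1 : F)) ≤
          WithZero.exp (-(E (ev.2 : Place K F))) := fun ev =>
      exists_forall_pow_mul_le (ev.2 : Place K F) (hjnon_p _ ev.2.2) _ _
    choose m₀ hm₀ using hex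
    obtain ⟨c, hc⟩ := Finite.exists_le m₀
    refine ⟨c, fun a e he hca => ?_⟩
    rw [hJ, mulJ_inv_pow_apply]
    have heMp : e ∈ SMp := by
      have := hsMp 0 e he
      rwa [pow_zero] at this
    refine ⟨fun i => (V i).mul_mem _ _ (pow_mem (hjiV i) a) (heMp.1 i), fun v hv => ?_⟩
    by_cases hvp : Contains Rp v
    · rw [map_mul, map_pow]
      have h1 : v.adicValuation j⁻¹ ≤ 1 := adicValuation_le_one_of_mem v (hjm ▸ hv jm)
      calc v.adicValuation j⁻¹ ^ a * v.adicValuation e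
          ≤ 1 * WithZero.exp (-(E v)) :=
            mul_le_mul' (pow_le_one' h1 a) (heMp.2 v hvp)
        _ = _ := one_mul _
    · exact hm₀ (⟨e, he⟩, ⟨v, hvp⟩) a ((hc _).trans hca)
  obtain ⟨c, hsm⟩ := hsm
  have h0 : ∀ u ∈ M0, ∃ a : ℕ, (J ^ a) u ∈ Mp := by
    intro u hu
    haveI : Finite {v : Place K F | ¬ Contains Rm v} := hfinm
    have hex : ∀ w : {v : Place K F | ¬ Contains Rm v}, ∃ m₀ : ℕ, ∀ m : ℕ, m₀ ≤ m →
        (w : Place K F).adicValuation (j ^ m * u) ≤ WithZero.exp (-(E (w : Place K F))) :=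
      fun w => exists_forall_pow_mul_le (w : Place K F) (hjnon_m _ w.2) _ _
    choose m₀ hm₀ using hex
    obtain ⟨a, ha⟩ := Finite.exists_le m₀
    refine ⟨a, ?_⟩
    rw [hJ, mulJ_pow_apply]
    refine ⟨fun i => (V i).mul_mem _ _ (pow_mem (hjV i) a) (hu.1 i), fun v hv => ?_⟩
    by_cases hvm : Contains Rm v
    · rw [map_mul, map_pow]
      have h1 : v.adicValuation j ≤ 1 := adicValuation_le_one_of_mem v (hjp ▸ hv jp)
      calc v.adicValuation j ^ a * v.adicValuation u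
          ≤ 1 * WithZero.exp (-(E v)) :=
            mul_le_mul' (pow_le_one' h1 a) (hu.2 v ⟨hv, hvm⟩)
        _ = _ := one_mul _
    · exact hm₀ ⟨v, hvm⟩ a (ha _)
  obtain ⟨c', hbdd⟩ := exists_torsion_bound_of_span ϖ J Mp Mm M0 s c hgen hsMp hsm h0
  -- saturation
  have hsat : ∀ (n : ℕ) (u : F), u ∈ M0 → (∃ w ∈ Wm, u = ϖ ^ n • w) →
      ∃ m0 ∈ M0, u = ϖ ^ n • m0 := by
    rintro n u hu ⟨w, hw, rfl⟩
    refine ⟨w, ⟨hw, fun v hv => ?_⟩, rfl⟩
    have := hu.2 v hv
    rwa [Algebra.smul_def, map_mul,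
      adicValuation_algebraMap_O v (pow_ne_zero n hϖ.ne_zero), one_mul] at this
  -- the approximants
  obtain ⟨ρ, hρV, hρU, hlocp, hlocm⟩ := hloc (c' + 1)
  obtain ⟨x, hx, w₁, hw₁, e₁⟩ :=
    exists_chart_approx hϖ harchp hdiv hE hρV (c' + 1) hlocp
  obtain ⟨y, hy, w₂, hw₂, e₂⟩ :=
    exists_chart_approx hϖ harchm hdiv hE hρV (c' + 1) hlocm
  obtain ⟨g, ⟨hgp, hgm⟩, w, hw, e⟩ := exists_global_approx ϖ Mp Mm M0 Wm hp0 hm0 hpW c' hsat hbdd
    (Nat.le_succ c') (x := x) (y := y) (ρ := ρ) hx hy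
    ⟨w₁, hw₁, by rw [e₁, Algebra.smul_def]⟩ ⟨w₂, hw₂, by rw [e₂, Algebra.smul_def]⟩
  refine ⟨g, hgp.1, fun i hi hgi => ?_, fun v => ?_⟩
  · -- `g ≡ ρ` modulo `ϖ`
    apply hρU i hi
    have h1 : ρ = g - ϖ ^ (c' + 1 - c') • w := by rw [← e]; ring
    have h2 : c' + 1 - c' = 1 := by omega
    rw [h2, pow_one, Algebra.smul_def] at h1
    rw [h1, ValuationSubring.mem_nonunits_iff]
    refine lt_of_le_of_lt (Valuation.map_sub _ _ _) (max_lt ?_ ?_)
    · exact (ValuationSubring.mem_nonunits_iff _).1 hgi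
    · rw [map_mul]
      exact mul_lt_one_of_lt_of_le ((ValuationSubring.mem_nonunits_iff _).1 (hϖV i))
        ((ValuationSubring.valuation_le_one_iff _ _).2 (hw i))
  · rcases hcover v with hv | hv
    · exact hgp.2 v hv
    · exact hgm.2 v hv

/-- **STEP G, divisor form**: in the situation of `exists_section`, if `U₀` is nonempty then
`g ≠ 0` and `E ≤ div g`. -/
theorem exists_section_ord
    {Rp Rm : Type*} [CommRing Rp] [IsDomain Rp] [IsNoetherianRing Rp] [IsIntegrallyClosed Rp]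
    [Algebra Rp F] [IsFractionRing Rp F] [Algebra O Rp] [IsScalarTower O Rp F]
    [CommRing Rm] [IsDomain Rm] [IsNoetherianRing Rm]
    [Algebra Rm F] [IsFractionRing Rm F] [Algebra O Rm] [IsScalarTower O Rm F]
    [Finite ι] {ϖ : O} (hϖ : Irreducible ϖ)
    (hVp : ∀ i (r : Rp), algebraMap Rp F r ∈ V i) (hVm : ∀ i (r : Rm), algebraMap Rm F r ∈ V i)
    (hϖV : ∀ i, algebraMap O F ϖ ∈ (V i).nonunits)
    (hsatp : ∀ r : Rp, (∀ i, algebraMap Rp F r ∈ (V i).nonunits) → algebraMap O Rp ϖ ∣ r)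
    (harchp : ∀ i (x : F) (c : Rp), c ∈ vCentre (V i) (hVp i) → ∃ m : ℕ, (c ^ m) • x ∈ V i)
    (harchm : ∀ i (x : F) (c : Rm), c ∈ vCentre (V i) (hVm i) → ∃ m : ℕ, (c ^ m) • x ∈ V i)
    (hE : {v : Place K F | E v ≠ 0}.Finite)
    (hdiv : ∀ x : F, x ≠ 0 → {v : Place K F | v.ord x ≠ 0}.Finite)
    {j : F} (hj0 : j ≠ 0) (hjp : ∃ r : Rp, algebraMap Rp F r = j)
    (hjm : ∃ r : Rm, algebraMap Rm F r = j⁻¹)
    (hpole_p : ∀ v : Place K F, j ∈ v.toValuationSubring → Contains Rp v)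
    (hpole_m : ∀ v : Place K F, j⁻¹ ∈ v.toValuationSubring → Contains Rm v)
    (s₀ : Finset F) (hs₀ : ∀ e ∈ s₀, ∃ r : Rp, algebraMap Rp F r = e)
    (hspan : ∀ r : Rp, algebraMap Rp F r ∈
      Submodule.span O {y : F | ∃ (n : ℕ) (e : F), e ∈ s₀ ∧ y = j ^ n * e})
    (U₀ : Set ι) (hU₀ : U₀.Nonempty)
    (hloc : ∀ N : ℕ, ∃ ρ : F, (∀ i, ρ ∈ V i) ∧ (∀ i ∈ U₀, ρ ∉ (V i).nonunits) ∧
      (∀ 𝔫 : Ideal Rp, 𝔫.IsMaximal → algebraMap O Rp ϖ ∈ 𝔫 →
        ∃ η : F, LocApprox V hVp E ϖ 𝔫 ρ N η) ∧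
      (∀ 𝔫 : Ideal Rm, 𝔫.IsMaximal → algebraMap O Rm ϖ ∈ 𝔫 →
        ∃ η : F, LocApprox V hVm E ϖ 𝔫 ρ N η)) :
    ∃ g : F, g ≠ 0 ∧ (∀ i, g ∈ V i) ∧ (∀ i ∈ U₀, g ∉ (V i).nonunits) ∧
      ∀ v : Place K F, E v ≤ v.ord g := by
  obtain ⟨g, hg1, hg2, hg3⟩ := exists_section V E hϖ hVp hVm hϖV hsatp harchp harchm hE hdiv hj0
    hjp hjm hpole_p hpole_m s₀ hs₀ hspan U₀ hloc
  obtain ⟨i₀, hi₀⟩ := hU₀
  have hg0 : g ≠ 0 := by
    rintro rfl
    apply hg2 i₀ hi₀
    rw [ValuationSubring.mem_nonunits_iff, map_zero]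
    exact zero_lt_one
  exact ⟨g, hg0, hg1, hg2, fun v => (adicValuation_le_exp_neg_iff v hg0 _).1 (hg3 v)⟩

end Two

end Fermat.Agent.S33.G.TwoCharts
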